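/-
GATE-Z (S15, Mazur block) / node (F-KUMLOC) = (c) of helper20 LEAD-5 (board 6089), ABSTRACT part
(helper79).  Imports `GZ/Kum/KumDev` + `GZ/Dev/Induced` (Mathlib only below).

Setting of `KumDev` (`h : KumHyp J0 n ι 𝒱 M`), a second marked module `𝒱''` on `W''` with an
equivariant map `ι'' : W'' →+ J` into the `n`-torsion, a morphism `φ : MarkedHom 𝒱 𝒱''` and an
equivariant endomorphism `E` of `J` with `ι'' ∘ φ = E ∘ ι` ("`φ` is induced by the projector `E`").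

* `exists_fixed_of_H1map_eq_zero` : `H1map φ (kum h z) = 0 ⟹ E z ∈ n • J^G`;
* `exists_fixed_of_H1map_eq`      : the difference form;
* `kumLoc φ h Y hY : ↥Y →+ 𝒱''.H1` (`Y ≤ M`), `kumLoc_eq_zero` : if moreover `z - E z ∈ n • J^G`
  on `Y` then `kumLoc z = 0 ⟹ z ∈ n • J^G`;
* `card_le_of_incongruent` : a family of elements of `Y`, pairwise incongruent modulo `n • J^G`, has
  at most `#H~¹(𝒱'')` members (the shape consumed by `GZ/F/Grow.grow_core`);
* `mapHom`, `comapHom` : the canonical morphisms to / from induced markings.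
-/
import Fermat.Agent.GZ.Kum.KumDev
import Fermat.Agent.GZ.Dev.Induced

set_option autoImplicit false
set_option linter.unusedSectionVars false

namespace Fermat.Agent.GZ.Kum.LocAbs

open Fermat.Agent.GZ.Dev Fermat.Agent.GZ.Kum.KumDev

noncomputable section

variable {G : Type*} [Group G] {D I : Subgroup G}
variable {J : Type*} [AddCommGroup J] [DistribMulAction G J]
variable {W : Type*} [AddCommGroup W] [DistribMulAction G W]
variable {W'' : Type*} [AddCommGroup W''] [DistribMulAction G W'']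

/-! ### canonical morphisms for induced markings -/

/-- the projection to the image marking. -/
def mapHom (𝒲 : Marked D I W) (π : W →+ W'')
    (hπ : ∀ (σ : G) (w : W), π (σ • w) = σ • π w) (hsurj : Function.Surjective π) :
    MarkedHom 𝒲 (𝒲.map π hπ hsurj) where
  f := π
  f_smul := hπ
  map_Wf := fun w hw => ⟨w, hw, rfl⟩
  map_X := fun x hx => ⟨x, hx, rfl⟩

/-- the inclusion of the restricted marking. -/
def comapHom (𝒲 : Marked D I W) (j : W'' →+ W)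
    (hj : ∀ (σ : G) (w : W''), j (σ • w) = σ • j w) (hinj : Function.Injective j) :
    MarkedHom (𝒲.comap j hj hinj) 𝒲 where
  f := j
  f_smul := hj
  map_Wf := fun _ hw => hw
  map_X := fun _ hx => hx

/-- a marked endomorphism of `𝒲` with values in the image of `j` factors through the restricted
marking. -/
def factorHom (𝒲 : Marked D I W) (j : W'' →+ W)
    (hj : ∀ (σ : G) (w : W''), j (σ • w) = σ • j w) (hinj : Function.Injective j)
    (φ : MarkedHom 𝒲 𝒲) (π : W →+ W'') (hπ : ∀ w : W, j (π w) = φ.f w) :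
    MarkedHom 𝒲 (𝒲.comap j hj hinj) where
  f := π
  f_smul := fun σ w => hinj (by rw [hπ, hj, hπ, φ.f_smul])
  map_Wf := fun w hw => by
    rw [Marked.mem_comap_Wf, hπ]
    exact φ.map_Wf w hw
  map_X := fun x hx => by
    rw [Marked.mem_comap_X]
    have : (fun σ => j (π (x σ))) = fun σ => φ.f (x σ) := funext fun σ => hπ _
    rw [this]
    exact φ.map_X x hx

@[simp] theorem factorHom_f (𝒲 : Marked D I W) (j : W'' →+ W)
    (hj : ∀ (σ : G) (w : W''), j (σ • w) = σ • j w) (hinj : Function.Injective j)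
    (φ : MarkedHom 𝒲 𝒲) (π : W →+ W'') (hπ : ∀ w : W, j (π w) = φ.f w) (w : W) :
    (factorHom 𝒲 j hj hinj φ π hπ).f w = π w := rfl

/-! ### the kernel of the localised Kummer map -/

variable {J0 : AddSubgroup J} {n : ℕ} {ι : W →+ J} {𝒱 : Marked D I W} {M : AddSubgroup J}

/-- **kernel computation**: if the image of the Kummer class of `z` under the morphism induced by
the equivariant endomorphism `E` vanishes, then `E z ∈ n • J^G`. -/
theorem exists_fixed_of_H1map_eq_zero (h : KumHyp J0 n ι 𝒱 M) {𝒱'' : Marked D I W''}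
    (φ : MarkedHom 𝒱 𝒱'') (ι'' : W'' →+ J)
    (hι'' : ∀ (σ : G) (w : W''), ι'' (σ • w) = σ • ι'' w)
    (hkill'' : ∀ w : W'', n • ι'' w = 0)
    (E : J →+ J) (hEG : ∀ (σ : G) (v : J), E (σ • v) = σ • E v)
    (hφE : ∀ w : W, ι'' (φ.f w) = E (ι w)) (z : ↥M)
    (hz : H1map φ (kum h z) = 0) :
    ∃ z0 : J, (∀ σ : G, σ • z0 = z0) ∧ n • z0 = E (z : J) := by
  obtain ⟨ρ⟩ := nonempty_roots (I := I) h z.2
  rw [kum_eq_mk h z ρ, H1map_mk, H1mk_eq_zero_iff, mem_range_d0_iff] at hz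
  obtain ⟨w, w', -, h1, -, -⟩ := hz
  refine ⟨E ρ.R - ι'' w, fun σ => ?_, ?_⟩
  · have e : φ.f ((trip h z.2 ρ).1 σ) = σ • w - w := congrFun h1 σ
    have e' := congrArg ι'' e
    rw [hφE, ι_trip_x, map_sub E, hEG, map_sub ι'', hι''] at e'
    rw [smul_sub]
    calc σ • E ρ.R - σ • ι'' w = (σ • E ρ.R - E ρ.R) - (σ • ι'' w - ι'' w) + (E ρ.R - ι'' w) := by
          abel
      _ = E ρ.R - ι'' w := by rw [e', sub_self, zero_add]
  · rw [smul_sub, hkill'', sub_zero, ← map_nsmul, ρ.hR]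

/-- the difference form. -/
theorem exists_fixed_of_H1map_eq (h : KumHyp J0 n ι 𝒱 M) {𝒱'' : Marked D I W''}
    (φ : MarkedHom 𝒱 𝒱'') (ι'' : W'' →+ J)
    (hι'' : ∀ (σ : G) (w : W''), ι'' (σ • w) = σ • ι'' w)
    (hkill'' : ∀ w : W'', n • ι'' w = 0)
    (E : J →+ J) (hEG : ∀ (σ : G) (v : J), E (σ • v) = σ • E v)
    (hφE : ∀ w : W, ι'' (φ.f w) = E (ι w)) (z z' : ↥M)
    (hz : H1map φ (kum h z) = H1map φ (kum h z')) :
    ∃ z0 : J, (∀ σ : G, σ • z0 = z0) ∧ n • z0 = E ((z : J) - (z' : J)) := by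
  have h0 : H1map φ (kum h (z - z')) = 0 := by
    rw [map_sub, map_sub, hz, sub_self]
  exact exists_fixed_of_H1map_eq_zero h φ ι'' hι'' hkill'' E hEG hφE (z - z') h0

/-- **the localised Kummer map** on a subgroup `Y ≤ M`. -/
def kumLoc (h : KumHyp J0 n ι 𝒱 M) {𝒱'' : Marked D I W''} (φ : MarkedHom 𝒱 𝒱'')
    (Y : AddSubgroup J) (hY : Y ≤ M) : ↥Y →+ 𝒱''.H1 :=
  ((H1map φ).comp (kum h)).comp (AddSubgroup.inclusion hY)

theorem kumLoc_apply (h : KumHyp J0 n ι 𝒱 M) {𝒱'' : Marked D I W''} (φ : MarkedHom 𝒱 𝒱'')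
    (Y : AddSubgroup J) (hY : Y ≤ M) (y : ↥Y) :
    kumLoc h φ Y hY y = H1map φ (kum h ⟨(y : J), hY y.2⟩) := rfl

/-- **the kernel of the localised Kummer map is inside `n • J^G`** as soon as `1 - E` maps `Y` into
`n • J^G`. -/
theorem kumLoc_eq_zero (h : KumHyp J0 n ι 𝒱 M) {𝒱'' : Marked D I W''}
    (φ : MarkedHom 𝒱 𝒱'') (ι'' : W'' →+ J)
    (hι'' : ∀ (σ : G) (w : W''), ι'' (σ • w) = σ • ι'' w)
    (hkill'' : ∀ w : W'', n • ι'' w = 0)
    (E : J →+ J) (hEG : ∀ (σ : G) (v : J), E (σ • v) = σ • E v)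
    (hφE : ∀ w : W, ι'' (φ.f w) = E (ι w)) (Y : AddSubgroup J) (hY : Y ≤ M)
    (hEY : ∀ y ∈ Y, ∃ z1 : J, (∀ σ : G, σ • z1 = z1) ∧ n • z1 = y - E y)
    (y : ↥Y) (hy : kumLoc h φ Y hY y = 0) :
    ∃ z0 : J, (∀ σ : G, σ • z0 = z0) ∧ n • z0 = (y : J) := by
  obtain ⟨z0, hz0, e0⟩ := exists_fixed_of_H1map_eq_zero h φ ι'' hι'' hkill'' E hEG hφE
    ⟨(y : J), hY y.2⟩ hy
  obtain ⟨z1, hz1, e1⟩ := hEY y y.2
  refine ⟨z0 + z1, fun σ => by rw [smul_add, hz0 σ, hz1 σ], ?_⟩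
  rw [nsmul_add, e0, e1]
  abel

/-- **counting form** (the shape consumed by `GZ/F/Grow.grow_core`): elements of `Y` pairwise
incongruent modulo `n • J^G` inject into `H~¹(𝒱'')`. -/
theorem card_le_of_incongruent (h : KumHyp J0 n ι 𝒱 M) {𝒱'' : Marked D I W''}
    (φ : MarkedHom 𝒱 𝒱'') (ι'' : W'' →+ J)
    (hι'' : ∀ (σ : G) (w : W''), ι'' (σ • w) = σ • ι'' w)
    (hkill'' : ∀ w : W'', n • ι'' w = 0)
    (E : J →+ J) (hEG : ∀ (σ : G) (v : J), E (σ • v) = σ • E v)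
    (hφE : ∀ w : W, ι'' (φ.f w) = E (ι w)) (Y : AddSubgroup J) (hY : Y ≤ M)
    (hEY : ∀ y ∈ Y, ∃ z1 : J, (∀ σ : G, σ • z1 = z1) ∧ n • z1 = y - E y)
    [Finite 𝒱''.H1] (m : ℕ) (y : Fin m → J) (hyY : ∀ j, y j ∈ Y)
    (hinc : ∀ j j', j ≠ j' → ¬ ∃ z0 : J, (∀ σ : G, σ • z0 = z0) ∧ n • z0 = y j - y j') :
    m ≤ Nat.card 𝒱''.H1 := by
  have hinj : Function.Injective fun j : Fin m => kumLoc h φ Y hY ⟨y j, hyY j⟩ := by
    intro j j' hjj'
    by_contra hne
    apply hinc j j' hne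
    have h0 : kumLoc h φ Y hY (⟨y j, hyY j⟩ - ⟨y j', hyY j'⟩) = 0 := by
      rw [map_sub]
      exact sub_eq_zero.mpr hjj'
    exact kumLoc_eq_zero h φ ι'' hι'' hkill'' E hEG hφE Y hY hEY _ h0
  have := Nat.card_le_card_of_injective _ hinj
  rwa [Nat.card_fin] at this

end

end Fermat.Agent.GZ.Kum.LocAbs
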