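/-
GATE-Z (S15, Mazur block) / node (KUM), the TAUTOLOGICAL torsion model (helper79), Mathlib only.

For a `G`-module `J` and `n : ℕ`: `torsSub J n = J[n]` as an `AddSubgroup`, with the restricted
`G`-action (`DistribMulAction G ↥(torsSub J n)`), and the inclusion `torsι : ↥(torsSub J n) →+ J`
with the four model properties `hinj hkill htors hequiv` of `GZ/Kum/KumDev.KumHyp`.
-/
import Mathlib

set_option autoImplicit false

namespace Fermat.Agent.GZ.Kum.TorsModel

variable {G : Type*} [Group G] (J : Type*) [AddCommGroup J] [DistribMulAction G J] (n : ℕ)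

/-- the `n`-torsion of `J`. -/
def torsSub : AddSubgroup J := (nsmulAddMonoidHom (α := J) n).ker

variable {J n}

theorem mem_torsSub {x : J} : x ∈ torsSub J n ↔ n • x = 0 := by
  unfold torsSub
  rw [AddMonoidHom.mem_ker]
  rfl

theorem smul_mem_torsSub (σ : G) {x : J} (hx : x ∈ torsSub J n) : σ • x ∈ torsSub J n := by
  rw [mem_torsSub] at hx ⊢
  have h : σ • (n • x) = n • (σ • x) := map_nsmul (DistribSMul.toAddMonoidHom J σ) n x
  rw [← h, hx, smul_zero]

/-- the restricted action. -/
instance instSMulTorsSub : SMul G ↥(torsSub J n) :=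
  ⟨fun σ x => ⟨σ • (x : J), smul_mem_torsSub σ x.2⟩⟩

@[simp] theorem coe_smul_torsSub (σ : G) (x : ↥(torsSub J n)) :
    ((σ • x : ↥(torsSub J n)) : J) = σ • (x : J) := rfl

instance instDistribMulActionTorsSub : DistribMulAction G ↥(torsSub J n) where
  one_smul x := Subtype.ext (one_smul G (x : J))
  mul_smul σ τ x := Subtype.ext (mul_smul σ τ (x : J))
  smul_zero σ := Subtype.ext (smul_zero (A := J) σ)
  smul_add σ x y := Subtype.ext (smul_add σ (x : J) (y : J))

variable (J n)

/-- the inclusion `J[n] → J`. -/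
def torsι : ↥(torsSub J n) →+ J := (torsSub J n).subtype

variable {J n}

@[simp] theorem torsι_apply (x : ↥(torsSub J n)) : torsι J n x = (x : J) := rfl

theorem torsι_injective : Function.Injective (torsι J n) := Subtype.val_injective

theorem nsmul_torsι (x : ↥(torsSub J n)) : n • torsι J n x = 0 := mem_torsSub.1 x.2

theorem exists_torsι_eq (t : J) (ht : n • t = 0) : ∃ w : ↥(torsSub J n), torsι J n w = t :=
  ⟨⟨t, mem_torsSub.2 ht⟩, rfl⟩

theorem torsι_smul (σ : G) (x : ↥(torsSub J n)) : torsι J n (σ • x) = σ • torsι J n x := rfl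

end Fermat.Agent.GZ.Kum.TorsModel
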