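/-
GATE-Z (S15, Mazur block) / node (F-KUMLOC), POLYNOMIAL part (helper79).  Mathlib + `GZ/Nak`
(`polyHom`, `freeHom`, `freeToPoly`) + `GZ/F/Grow` (`eProd`, `ePoly`) + `GZ/F/Proj` (`eisIdeal`).

The Hecke operators `T i` need not commute on `J`; a commutative polynomial `P ∈ 𝔪 ^ N`
(`𝔪 = (X_i - a_i)`) is lifted to the free algebra in a STRUCTURED way — a combination of words
ending with a product of `N` Eisenstein operators — so that its action on `J` maps `y` into a
`T`-stable subgroup `Z` as soon as all products of `N` Eisenstein operators do (no commutation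
needed); on a `T`-stable subgroup where the `T i` commute every lift acts as the polynomial.

* `eFree a l`, `freeToPoly_eFree`, `freeHom_eFree`;
* `freeHom_mem_of_stable`     : every word preserves a `T`-stable subgroup;
* `exists_free_lift_of_mem_pow` : the structured lift;
* `freeHom_restrict`          : on a stable subgroup with commuting restrictions `S i`,
                                `freeHom T q z = polyHom S hS (freeToPoly q) z`;
* `eProd_append`, `eProd_mem_of_le` : longer products of Eisenstein operators.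
-/
import Mathlib
import Fermat.Agent.GZ.Nak
import Fermat.Agent.GZ.F.Grow
import Fermat.Agent.GZ.F.Proj
import Fermat.Agent.GZ.Kum.TorsModel

set_option autoImplicit false
set_option linter.unusedSectionVars false

namespace Fermat.Agent.GZ.Kum.LocPoly

open Fermat.Agent.GZ.Nak Fermat.Agent.GZ.F.Grow Fermat.Agent.GZ.F.Proj
  Fermat.Agent.GZ.Kum.TorsModel

noncomputable section

variable {ι J : Type*} [AddCommGroup J] (T : ι → AddMonoid.End J)

/-- the word `∏ (x_i - a_i)` along a list, in the free algebra. -/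
def eFree (a : ι → ℤ) (l : List ι) : FreeAlgebra ℤ ι :=
  (l.map fun i => FreeAlgebra.ι ℤ i - algebraMap ℤ (FreeAlgebra ℤ ι) (a i)).prod

theorem freeToPoly_eFree (a : ι → ℤ) (l : List ι) : freeToPoly ι (eFree a l) = ePoly a l := by
  unfold eFree ePoly
  induction l with
  | nil => simp
  | cons i l ih =>
    rw [List.map_cons, List.prod_cons, map_mul, ih, List.map_cons, List.prod_cons]
    congr 1
    rw [map_sub, AlgHom.commutes, freeToPoly, FreeAlgebra.lift_ι_apply]
    rfl

theorem freeHom_eFree (a : ι → ℤ) (l : List ι) : freeHom T (eFree a l) = eProd T a l := by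
  unfold eFree eProd
  induction l with
  | nil => simp
  | cons i l ih =>
    rw [List.map_cons, List.prod_cons, map_mul, ih, List.map_cons, List.prod_cons]
    congr 1
    rw [map_sub, AlgHom.commutes, freeHom, FreeAlgebra.lift_ι_apply]
    rfl

/-- every word in the `T i` preserves a `T`-stable subgroup. -/
theorem freeHom_mem_of_stable (Z : AddSubgroup J) (hZ : ∀ i, ∀ z ∈ Z, T i z ∈ Z)
    (q : FreeAlgebra ℤ ι) : ∀ z ∈ Z, freeHom T q z ∈ Z := by
  induction q with
  | grade0 n =>
    intro z hz
    rw [AlgHom.commutes]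
    have : (algebraMap ℤ (AddMonoid.End J) n) z = n • z := by simp
    rw [this]
    exact Z.zsmul_mem hz n
  | grade1 i =>
    intro z hz
    rw [freeHom, FreeAlgebra.lift_ι_apply]
    exact hZ i z hz
  | mul x y hx hy =>
    intro z hz
    rw [map_mul]
    exact hx _ (hy z hz)
  | add x y hx hy =>
    intro z hz
    rw [map_add]
    exact Z.add_mem (hx z hz) (hy z hz)

/-- **the structured lift**: `P ∈ 𝔪 ^ N` has a lift `q` to the free algebra mapping `y` into the
`T`-stable subgroup `Z` as soon as all products of `N` Eisenstein operators do. -/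
theorem exists_free_lift_of_mem_pow (a : ι → ℤ) (N : ℕ) {P : MvPolynomial ι ℤ}
    (hP : P ∈ eisIdeal a ^ N) :
    ∃ q : FreeAlgebra ℤ ι, freeToPoly ι q = P ∧
      ∀ (Z : AddSubgroup J), (∀ i, ∀ z ∈ Z, T i z ∈ Z) → ∀ y : J,
        (∀ l : List ι, l.length = N → eProd T a l y ∈ Z) → freeHom T q y ∈ Z := by
  unfold eisIdeal at hP
  rw [Ideal.span, Submodule.span_pow] at hP
  induction hP using Submodule.span_induction with
  | mem y hy =>
    obtain ⟨f, rfl⟩ := Set.mem_pow.mp hy
    have hf : ∀ j : Fin N, ∃ i : ι, (MvPolynomial.X i - MvPolynomial.C (a i) :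
        MvPolynomial ι ℤ) = (f j : MvPolynomial ι ℤ) := fun j => (f j).2
    choose g hg using hf
    have h1 : (List.ofFn fun j => ((f j : _) : MvPolynomial ι ℤ)) =
        (List.ofFn g).map fun i => (MvPolynomial.X i - MvPolynomial.C (a i) :
          MvPolynomial ι ℤ) := by
      rw [List.map_ofFn]
      congr 1
      funext j
      exact (hg j).symm
    refine ⟨eFree a (List.ofFn g), ?_, fun Z _ y hy => ?_⟩
    · rw [freeToPoly_eFree, h1]
      rfl
    · rw [freeHom_eFree]
      exact hy _ List.length_ofFn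
  | zero => exact ⟨0, map_zero _, fun Z _ y _ => by rw [map_zero]; exact Z.zero_mem⟩
  | add y y' _ _ hy hy' =>
    obtain ⟨q, hq, hqZ⟩ := hy
    obtain ⟨q', hq', hqZ'⟩ := hy'
    refine ⟨q + q', by rw [map_add, hq, hq'], fun Z hZ y0 h0 => ?_⟩
    rw [map_add]
    exact Z.add_mem (hqZ Z hZ y0 h0) (hqZ' Z hZ y0 h0)
  | smul c y _ hy =>
    obtain ⟨q, hq, hqZ⟩ := hy
    obtain ⟨c', hc'⟩ := freeToPoly_surjective ι c
    refine ⟨c' * q, by rw [map_mul, hq, hc', smul_eq_mul], fun Z hZ y0 h0 => ?_⟩
    rw [map_mul]
    exact freeHom_mem_of_stable T Z hZ c' _ (hqZ Z hZ y0 h0)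

/-- **restriction**: on a `T`-stable subgroup where the restrictions `S i` commute, every word acts
as its abelianisation. -/
theorem freeHom_restrict (Z : AddSubgroup J) (S : ι → AddMonoid.End ↥Z)
    (hST : ∀ (i : ι) (z : ↥Z), ((S i z : ↥Z) : J) = T i (z : J))
    (hS : ∀ i j, Commute (S i) (S j)) (q : FreeAlgebra ℤ ι) (z : ↥Z) :
    freeHom T q (z : J) = ((polyHom S hS (freeToPoly ι q) z : ↥Z) : J) := by
  induction q generalizing z with
  | grade0 n =>
    rw [AlgHom.commutes, AlgHom.commutes, MvPolynomial.algebraMap_eq, polyHom_C,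
      AddMonoid.End.intCast_apply]
    have : (algebraMap ℤ (AddMonoid.End J) n) (z : J) = n • (z : J) := by simp
    rw [this]
    rfl
  | grade1 i =>
    rw [freeHom, FreeAlgebra.lift_ι_apply, freeToPoly, FreeAlgebra.lift_ι_apply, polyHom_X, hST]
  | mul x y hx hy =>
    rw [map_mul, map_mul, map_mul]
    show freeHom T x (freeHom T y (z : J)) = _
    rw [hy z, hx]
    rfl
  | add x y hx hy =>
    rw [map_add, map_add, map_add]
    show freeHom T x (z : J) + freeHom T y (z : J) = _
    rw [hx z, hy z]
    rfl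

/-! ### longer products of Eisenstein operators -/

theorem eProd_append (a : ι → ℤ) (l l' : List ι) (y : J) :
    eProd T a (l ++ l') y = eProd T a l (eProd T a l' y) := by
  unfold eProd
  rw [List.map_append, List.prod_append]
  rfl

/-- if all products of `N₀` Eisenstein operators map `y` into the `T`-stable subgroup `Z`, so do
all products of `N ≥ N₀` of them. -/
theorem eProd_mem_of_le (a : ι → ℤ) (Z : AddSubgroup J) (hZ : ∀ i, ∀ z ∈ Z, T i z ∈ Z)
    {N₀ N : ℕ} (hN : N₀ ≤ N) (y : J)
    (hy : ∀ l : List ι, l.length = N₀ → eProd T a l y ∈ Z) (l : List ι) (hl : l.length = N) :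
    eProd T a l y ∈ Z := by
  have hsplit : l = l.take (N - N₀) ++ l.drop (N - N₀) := (List.take_append_drop _ l).symm
  rw [hsplit, eProd_append]
  have h1 : eProd T a (l.drop (N - N₀)) y ∈ Z := hy _ (by rw [List.length_drop, hl]; omega)
  rw [← freeHom_eFree]
  exact freeHom_mem_of_stable T Z hZ _ _ h1

/-! ### the subring generated by the `T i` -/

theorem freeHom_mem_closure (q : FreeAlgebra ℤ ι) :
    freeHom T q ∈ Subring.closure (Set.range T) := by
  induction q with
  | grade0 n =>
    rw [AlgHom.commutes, eq_intCast]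
    exact intCast_mem _ n
  | grade1 i =>
    rw [freeHom, FreeAlgebra.lift_ι_apply]
    exact Subring.subset_closure ⟨i, rfl⟩
  | mul x y hx hy => rw [map_mul]; exact Subring.mul_mem _ hx hy
  | add x y hx hy => rw [map_add]; exact Subring.add_mem _ hx hy

/-- equivariance passes from the generators to the generated subring. -/
theorem closure_equivariant {G : Type*} [Group G] [DistribMulAction G J]
    (hT : ∀ (i : ι) (σ : G) (v : J), T i (σ • v) = σ • T i v) :
    ∀ t ∈ Subring.closure (Set.range T), ∀ (σ : G) (v : J), t (σ • v) = σ • t v := by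
  intro t ht σ
  induction ht using Subring.closure_induction with
  | mem x hx =>
    obtain ⟨i, rfl⟩ := hx
    exact hT i σ
  | zero => intro v; exact (smul_zero σ).symm
  | one => intro v; rfl
  | add x y _ _ hx hy =>
    intro v
    show x (σ • v) + y (σ • v) = σ • (x v + y v)
    rw [hx, hy, smul_add]
  | neg x _ hx =>
    intro v
    show -x (σ • v) = σ • (-x v)
    rw [hx, smul_neg]
  | mul x y _ _ hx hy =>
    intro v
    show x (y (σ • v)) = σ • x (y v)
    rw [hy, hx]

/-! ### the Eisenstein projector as an endomorphism of `J` -/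

/-- the restriction of an endomorphism of `J` to `J[n]`. -/
def resTors (n : ℕ) (t : AddMonoid.End J) : AddMonoid.End ↥(torsSub J n) :=
  ((t : J →+ J).comp (torsSub J n).subtype).codRestrict (torsSub J n) (fun w => mem_torsSub.2 (by
    show n • t (w : J) = 0
    rw [← map_nsmul, mem_torsSub.1 w.2, map_zero]))

@[simp] theorem coe_resTors (n : ℕ) (t : AddMonoid.End J) (w : ↥(torsSub J n)) :
    ((resTors n t w : ↥(torsSub J n)) : J) = t (w : J) := rfl

/-- **the Eisenstein projector**: if the `T i` commute on the finite group `J[n]`, then for every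
`N` there is `E` in the ring generated by the `T i` such that
* some fixed number `n₁` of Eisenstein operators kills `E w` for every `w ∈ J[n]`,
* `E w = w` for `w ∈ J[n]` killed by all products of `N` Eisenstein operators,
* `y - E y ∈ Z` for every `T`-stable subgroup `Z` and every `y` which all products of `N`
  Eisenstein operators map into `Z` (no commutation needed on `y`). -/
theorem exists_projector_endo (a : ι → ℤ) (n : ℕ) [Finite ↥(torsSub J n)]
    (hcomm : ∀ i j, ∀ w : J, n • w = 0 → T i (T j w) = T j (T i w)) (N : ℕ) :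
    ∃ E ∈ Subring.closure (Set.range T),
      (∃ n₁ : ℕ, ∀ w : J, n • w = 0 → ∀ l : List ι, l.length = n₁ → eProd T a l (E w) = 0) ∧
      (∀ w : J, n • w = 0 → (∀ l : List ι, l.length = N → eProd T a l w = 0) → E w = w) ∧
      ∀ (Z : AddSubgroup J), (∀ i, ∀ z ∈ Z, T i z ∈ Z) → ∀ y : J,
        (∀ l : List ι, l.length = N → eProd T a l y ∈ Z) → y - E y ∈ Z := by
  classical
  set S : ι → AddMonoid.End ↥(torsSub J n) := fun i => resTors n (T i) with hSdef
  have hS : ∀ i j, Commute (S i) (S j) := fun i j =>
    AddMonoidHom.ext fun w => Subtype.ext (hcomm i j (w : J) (mem_torsSub.1 w.2))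
  obtain ⟨e, he1, ⟨n₁, hkill⟩, hfix⟩ := exists_projector S hS a N
  obtain ⟨q₁, hq₁, hq₁Z⟩ := exists_free_lift_of_mem_pow T a N he1
  have hqe : freeToPoly ι (1 + q₁) = e := by
    rw [map_add, map_one, hq₁]
    ring
  have hEW : ∀ w : ↥(torsSub J n), freeHom T (1 + q₁) (w : J) =
      ((polyHom S hS e w : ↥(torsSub J n)) : J) := by
    intro w
    rw [freeHom_restrict T (torsSub J n) S (fun i z => rfl) hS (1 + q₁) w, hqe]
  have hprodW : ∀ (l : List ι) (w : ↥(torsSub J n)),
      eProd T a l (w : J) = ((eProd S a l w : ↥(torsSub J n)) : J) := by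
    intro l w
    rw [← freeHom_eFree, freeHom_restrict T (torsSub J n) S (fun i z => rfl) hS (eFree a l) w,
      freeToPoly_eFree, polyHom_ePoly]
  refine ⟨freeHom T (1 + q₁), freeHom_mem_closure T _, ⟨n₁, fun w hw l hl => ?_⟩,
    fun w hw hl => ?_, fun Z hZ y hy => ?_⟩
  · have h1 := hEW ⟨w, mem_torsSub.2 hw⟩
    rw [show ((⟨w, mem_torsSub.2 hw⟩ : ↥(torsSub J n)) : J) = w from rfl] at h1
    rw [h1, hprodW, hkill _ l hl]
    rfl
  · have h1 := hEW ⟨w, mem_torsSub.2 hw⟩
    rw [show ((⟨w, mem_torsSub.2 hw⟩ : ↥(torsSub J n)) : J) = w from rfl] at h1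
    rw [h1, hfix ⟨w, mem_torsSub.2 hw⟩ (fun l hl' => Subtype.ext (by
      rw [← hprodW]
      exact hl l hl'))]
  · have h1 : freeHom T q₁ y ∈ Z := hq₁Z Z hZ y hy
    have h2 : y - freeHom T (1 + q₁) y = -freeHom T q₁ y := by
      rw [map_add, map_one]
      show y - (y + freeHom T q₁ y) = _
      abel
    rw [h2]
    exact Z.neg_mem h1

end

end Fermat.Agent.GZ.Kum.LocPoly
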