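/-
GATE-Z (S15, Mazur block) / node (F-KUMLOC) = (c) of helper20 LEAD-5 (board 6089), the PLUG on
`J₀(p)` (helper79): **the `hsel` binder of F-TOP**.

`S : Finset ℕ` the excluded Hecke primes, `Good p S` the primes `q ∉ S`, `q ≠ p`,
`heckeRing p S` the ring generated by the `T_q` (`q` good) in `AddMonoid.End (JZero p)`,
`V_k := eisPart p S r k` (helper20's pin) with its `G_ℚ`-action (HGAL, helper42, binder-free).

* `markedEis … r k XL hXL : Dev.Marked D_A I_A ↥(eisPart p S r k)` — THE marked module `𝒱_k`: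
  the restriction (`Marked.comap` along `V_k ↪ J[r^k]`) of the Hecke-stable marking
  `HeckePlug.markedH` : `Wf = V_k^{I_A}`, `X = {x : G_ℚ → V_k | x ∈ Xur p (r^k) Sram ⊓ core XL}`
  (level-constant, unramified outside `Sram`, all Hecke translates in `XL`);
* `exists_kumLoc` : for `Y ≤ n' • J₀(p)(ℚ)` EISENSTEIN modulo `r^k • J₀(p)(ℚ)` (some `N`: every
  product of `N` operators `T_q - (q+1)`, `q` good, maps `Y` into `r^k • J₀(p)(ℚ)`) there is
  `κ : Y →+ H~¹(𝒱_k)` with `κ y = 0 ⟹ y ∈ r^k • J₀(p)(ℚ)`;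
* `card_le_of_incongruent` : hence a family of elements of `Y`, pairwise incongruent modulo
  `r^k • J₀(p)(ℚ)`, has at most `#H~¹(𝒱_k)` members (the shape of `GZ/F/Grow.grow_core`).
Binders: (LOCP*) `hdiv`, (FL) `hFL` (for `XL` itself).  Inputs from main: HGAL (helper42),
commutation of the `T_q` on torsion (helper36), the polynomial projector (helper20 `GZ/F/Proj`),
finiteness of `J₀(p)[n]` (helper18 `GH/TorsionCount`).
-/
import Fermat.Agent.GZ.Kum.HeckePlug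
import Fermat.Agent.GZ.Kum.LocAbs
import Fermat.Agent.GZ.Kum.LocPoly
import Fermat.Agent.GZ.F.Pin
import Fermat.Agent.GZ.Unip.EisPart
import Fermat.Agent.GZ.HGal.Main
import Fermat.Agent.GZ.HeckeTors.Comm
import Fermat.Agent.GH.TorsionCount

set_option autoImplicit false
set_option linter.unusedSectionVars false

noncomputable section

open AlgebraicCurve ModularCurve

namespace Fermat.Agent.GZ.Kum.LocPlug

open Fermat.Agent.GZ.Dev Fermat.Agent.GZ.Kum.KumDev Fermat.Agent.GZ.Kum.TorsModel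
  Fermat.Agent.GZ.Kum.Plug Fermat.Agent.GZ.Kum.H1Func Fermat.Agent.GZ.Kum.HeckePlug
  Fermat.Agent.GZ.Kum.LocAbs Fermat.Agent.GZ.Kum.LocPoly Fermat.Agent.GZ.F
  Fermat.Agent.GZ.Nak Fermat.Agent.GZ.F.Grow Fermat.Agent.GZ.F.Proj

local notation "Qb" => AlgebraicClosure ℚ
local notation "GQ" => (AlgebraicClosure ℚ ≃ₐ[ℚ] AlgebraicClosure ℚ)

variable (p : ℕ) [NeZero p] (S : Finset ℕ)

/-! ### the good Hecke operators -/

/-- the good primes: `q ∉ S`, `q ≠ p`. -/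
def Good : Type := {q : Nat.Primes // (q : ℕ) ∉ S ∧ (q : ℕ) ≠ p}

/-- `T_q` as an additive endomorphism. -/
def TJ (i : Good p S) : AddMonoid.End (JZero p) :=
  LinearMap.toAddMonoidHom (heckeOperatorBar p i.1)

/-- the Eisenstein eigenvalue `q + 1`. -/
def aE (i : Good p S) : ℤ := ((i.1 : ℕ) : ℤ) + 1

variable {p S}

@[simp] theorem TJ_apply (i : Good p S) (x : JZero p) : TJ p S i x = heckeOperatorBar p i.1 x := rfl

theorem TJ_smul (i : Good p S) (σ : GQ) (v : JZero p) : TJ p S i (σ • v) = σ • TJ p S i v :=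
  Fermat.Agent.GZ.HGal.heckeOperatorBar_smul p i.1 σ v

theorem eProd_eq (l : List (Good p S)) (x : JZero p) :
    eProd (TJ p S) (aE p S) l x = eisProd p (l.map fun i => i.1) x := by
  induction l generalizing x with
  | nil => rfl
  | cons i l ih =>
    have h1 : eProd (TJ p S) (aE p S) (i :: l) x =
        eOp (TJ p S) (aE p S) i (eProd (TJ p S) (aE p S) l x) := by
      unfold eProd
      rw [List.map_cons, List.prod_cons]
      rfl
    have h2 : eisProd p ((i :: l).map fun i => i.1) x =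
        eisOp p i.1 (eisProd p (l.map fun i => i.1) x) := by
      unfold eisProd
      rw [List.map_cons, List.map_cons, List.prod_cons]
      rfl
    rw [h1, h2, ih, eOp_apply, eisOp_apply]
    rfl

theorem goodList_map (l : List (Good p S)) : GoodList p S (l.map fun i => i.1) := by
  intro q hq
  obtain ⟨i, -, rfl⟩ := List.mem_map.mp hq
  exact i.2

theorem exists_good_list {l : List Nat.Primes} (hl : GoodList p S l) :
    ∃ l' : List (Good p S), (l'.map fun i => i.1) = l := by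
  induction l with
  | nil => exact ⟨[], rfl⟩
  | cons q l ih =>
    obtain ⟨l', hl'⟩ := ih (fun q' hq' => hl q' (List.mem_cons_of_mem _ hq'))
    refine ⟨(⟨q, hl q List.mem_cons_self⟩ : Good p S) :: l', ?_⟩
    show (q :: l'.map fun i => i.1) = q :: l
    rw [hl']

variable (p S)

/-- the ring generated by the good Hecke operators. -/
def heckeRing : Subring (AddMonoid.End (JZero p)) := Subring.closure (Set.range (TJ p S))

variable {p S}

theorem TJ_mem_heckeRing (i : Good p S) : TJ p S i ∈ heckeRing p S :=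
  Subring.subset_closure ⟨i, rfl⟩

theorem heckeRing_equivariant :
    ∀ t ∈ heckeRing p S, ∀ (σ : GQ) (v : JZero p), t (σ • v) = σ • t v :=
  closure_equivariant (TJ p S) TJ_smul

/-! ### the Eisenstein part as a Galois module -/

theorem hgal : Fermat.Agent.GZ.Unip.EisPart.HGal p :=
  fun q σ z => (Fermat.Agent.GZ.HGal.heckeOperatorBar_smul p q σ z).symm

variable (p S) (r k : ℕ)

instance instSMulEisPart : SMul GQ ↥(eisPart p S r k) :=
  ⟨fun σ x => ⟨σ • (x : JZero p),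
    Fermat.Agent.GZ.Unip.EisPart.smul_mem_eisPart hgal σ x.2⟩⟩

@[simp] theorem coe_smul_eisPart (σ : GQ) (x : ↥(eisPart p S r k)) :
    ((σ • x : ↥(eisPart p S r k)) : JZero p) = σ • (x : JZero p) := rfl

instance instDistribMulActionEisPart : DistribMulAction GQ ↥(eisPart p S r k) where
  one_smul x := Subtype.ext (one_smul GQ (x : JZero p))
  mul_smul σ τ x := Subtype.ext (mul_smul σ τ (x : JZero p))
  smul_zero σ := Subtype.ext (smul_zero (A := JZero p) σ)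
  smul_add σ x y := Subtype.ext (smul_add σ (x : JZero p) (y : JZero p))

/-- the inclusion `V_k ↪ J₀(p)[r^k]`. -/
def eisIncl : ↥(eisPart p S r k) →+ Wn p (r ^ k) where
  toFun v := ⟨(v : JZero p), mem_torsSub.2 v.2.1⟩
  map_zero' := rfl
  map_add' _ _ := rfl

variable {p S r k}

@[simp] theorem coe_eisIncl (v : ↥(eisPart p S r k)) :
    ((eisIncl p S r k v : Wn p (r ^ k)) : JZero p) = (v : JZero p) := rfl

theorem eisIncl_smul (σ : GQ) (v : ↥(eisPart p S r k)) :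
    eisIncl p S r k (σ • v) = σ • eisIncl p S r k v := rfl

theorem eisIncl_injective : Function.Injective (eisIncl p S r k) := fun _ _ h =>
  Subtype.ext (congrArg (fun w : Wn p (r ^ k) => (w : JZero p)) h)

variable (p S)

/-- **THE marked module `𝒱_k`** on the Eisenstein part `V_k = eisPart p S r k`. -/
def markedEis (hp : p.Prime) (hp2 : p ≠ 2) (hp3 : p ≠ 3) (A : ValuationSubring Qb)
    {Sram : Set ℕ} (hpS : p ∈ Sram) (r k : ℕ)
    (hnS : ∀ ℓ' : ℕ, ℓ'.Prime → ℓ' ∣ r ^ k → ℓ' ∈ Sram)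
    (XL : AddSubgroup (GQ → Wn p (r ^ k))) (hXL : ∀ w : Wn p (r ^ k), dCob GQ w ∈ XL) :
    Marked (A.decompositionSubgroup ℚ) (A.inertiaSubgroupIn ℚ) ↥(eisPart p S r k) :=
  (markedH p (r ^ k) hp hp2 hp3 A hpS hnS (heckeRing p S) heckeRing_equivariant XL hXL).comap
    (eisIncl p S r k) eisIncl_smul eisIncl_injective

variable {p S}

theorem mem_markedEis_Wf (hp : p.Prime) (hp2 : p ≠ 2) (hp3 : p ≠ 3) (A : ValuationSubring Qb)
    {Sram : Set ℕ} (hpS : p ∈ Sram) (r k : ℕ)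
    (hnS : ∀ ℓ' : ℕ, ℓ'.Prime → ℓ' ∣ r ^ k → ℓ' ∈ Sram)
    (XL : AddSubgroup (GQ → Wn p (r ^ k))) (hXL : ∀ w : Wn p (r ^ k), dCob GQ w ∈ XL)
    (v : ↥(eisPart p S r k)) :
    v ∈ (markedEis p S hp hp2 hp3 A hpS r k hnS XL hXL).Wf ↔
      ∀ τ ∈ A.inertiaSubgroupIn ℚ, τ • v = v := by
  show eisIncl p S r k v ∈ invI (A.inertiaSubgroupIn ℚ) (Wn p (r ^ k)) ↔ _
  rw [mem_invI]
  constructor
  · intro h τ hτ
    exact eisIncl_injective (by rw [eisIncl_smul]; exact h τ hτ)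
  · intro h τ hτ
    rw [← eisIncl_smul, h τ hτ]

theorem mem_markedEis_X (hp : p.Prime) (hp2 : p ≠ 2) (hp3 : p ≠ 3) (A : ValuationSubring Qb)
    {Sram : Set ℕ} (hpS : p ∈ Sram) (r k : ℕ)
    (hnS : ∀ ℓ' : ℕ, ℓ'.Prime → ℓ' ∣ r ^ k → ℓ' ∈ Sram)
    (XL : AddSubgroup (GQ → Wn p (r ^ k))) (hXL : ∀ w : Wn p (r ^ k), dCob GQ w ∈ XL)
    (x : GQ → ↥(eisPart p S r k)) :
    x ∈ (markedEis p S hp hp2 hp3 A hpS r k hnS XL hXL).X ↔
      (fun σ => eisIncl p S r k (x σ)) ∈ Xur p (r ^ k) Sram ⊓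
        core (EW p (r ^ k) (heckeRing p S) : Set (AddMonoid.End (Wn p (r ^ k)))) XL := Iff.rfl

/-- the admissible cochains of `𝒱_k` satisfy the local condition `XL` (after inclusion). -/
theorem markedEis_X_le (hp : p.Prime) (hp2 : p ≠ 2) (hp3 : p ≠ 3) (A : ValuationSubring Qb)
    {Sram : Set ℕ} (hpS : p ∈ Sram) (r k : ℕ)
    (hnS : ∀ ℓ' : ℕ, ℓ'.Prime → ℓ' ∣ r ^ k → ℓ' ∈ Sram)
    (XL : AddSubgroup (GQ → Wn p (r ^ k))) (hXL : ∀ w : Wn p (r ^ k), dCob GQ w ∈ XL)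
    {x : GQ → ↥(eisPart p S r k)}
    (hx : x ∈ (markedEis p S hp hp2 hp3 A hpS r k hnS XL hXL).X) :
    (fun σ => eisIncl p S r k (x σ)) ∈ Xur p (r ^ k) Sram ⊓ XL :=
  ⟨hx.1, core_le (EW p (r ^ k) (heckeRing p S)).one_mem XL hx.2⟩

/-! ### finiteness and commutation on the torsion -/

theorem finite_Wn (n : ℕ) (hn : n ≠ 0) : Finite (Wn p n) := by
  have := Fermat.Agent.GH.TorsionCount.finite_torsion p n hn
  refine Finite.of_injective
    (fun w : Wn p n => (⟨(w : JZero p), by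
      rw [Pic0.mem_torsion, natCast_zsmul]
      exact mem_torsSub.1 w.2⟩ : Pic0.torsion Qb (modularFunctionFieldBar p) n))
    (fun _ _ h => Subtype.ext (congrArg Subtype.val h))

theorem TJ_comm (hp : p.Prime) (n : ℕ) (hn : n ≠ 0) (i j : Good p S) (w : JZero p)
    (hw : n • w = 0) : TJ p S i (TJ p S j w) = TJ p S j (TJ p S i w) := by
  have hi : ¬ ((i.1 : ℕ)) ∣ p := fun h =>
    ((Nat.dvd_prime hp).mp h).elim (fun h1 => i.1.2.one_lt.ne' h1) (fun h2 => i.2.2 h2)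
  have hj : ¬ ((j.1 : ℕ)) ∣ p := fun h =>
    ((Nat.dvd_prime hp).mp h).elim (fun h1 => j.1.2.one_lt.ne' h1) (fun h2 => j.2.2 h2)
  have hfin : IsOfFinAddOrder w :=
    isOfFinAddOrder_iff_nsmul_eq_zero.mpr ⟨n, Nat.pos_of_ne_zero hn, hw⟩
  exact Fermat.Agent.GZ.HeckeTors.hecke_comm_tors p i.1.2 hi j.1.2 hj w hfin

/-! ### the main theorem -/

/-- `n • J₀(p)(ℚ)`. -/
def nMW (p : ℕ) [NeZero p] (n : ℕ) : AddSubgroup (JZero p) :=
  (fixedSub GQ (JZero p)).map (nsmulAddMonoidHom (α := JZero p) n)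

theorem mem_nMW {n : ℕ} {y : JZero p} :
    y ∈ nMW p n ↔ ∃ z : JZero p, (∀ σ : GQ, σ • z = z) ∧ n • z = y := Iff.rfl

theorem TJ_mem_nMW (n : ℕ) (i : Good p S) : ∀ z ∈ nMW p n, TJ p S i z ∈ nMW p n :=
  smul_fixedSub_stable n (TJ p S i) (TJ_smul i)

section Main

variable (hp : p.Prime) (hp2 : p ≠ 2) (hp3 : p ≠ 3) (A : ValuationSubring Qb)
  {Sram : Set ℕ} (hpS : p ∈ Sram) (r k : ℕ) (hr : r ≠ 0)
  (hnS : ∀ ℓ' : ℕ, ℓ'.Prime → ℓ' ∣ r ^ k → ℓ' ∈ Sram)
  (XL : AddSubgroup (GQ → Wn p (r ^ k))) (hXL : ∀ w : Wn p (r ^ k), dCob GQ w ∈ XL) (n' : ℕ)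
  (hdiv : ∀ z : JZero p, (∀ σ : GQ, σ • z = z) →
    ∃ R : JZero p, r ^ k • R = n' • z ∧ ∀ τ ∈ A.inertiaSubgroupIn ℚ, τ • R = R)
  (hFL : ∀ R : JZero p, (∀ σ : GQ, σ • (r ^ k • R) = r ^ k • R) → ∀ x : GQ → Wn p (r ^ k),
    (∀ σ, torsι (JZero p) (r ^ k) (x σ) = σ • R - R) → x ∈ XL)

include hp hr in
/-- the Eisenstein projector adapted to `Y`: an element `E` of the Hecke ring mapping `J₀(p)[r^k]`
into `V_k` with `(1 - E) Y ⊆ r^k • J₀(p)(ℚ)`. -/
theorem exists_eisProj (Y : AddSubgroup (JZero p))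
    (hYE : ∃ N : ℕ, ∀ l : List Nat.Primes, l.length = N → GoodList p S l →
      ∀ y ∈ Y, eisProd p l y ∈ nMW p (r ^ k)) :
    ∃ E ∈ heckeRing p S, (∀ w : Wn p (r ^ k), E (w : JZero p) ∈ eisPart p S r k) ∧
      ∀ y ∈ Y, y - E y ∈ nMW p (r ^ k) := by
  obtain ⟨N, hN⟩ := hYE
  have hn : r ^ k ≠ 0 := pow_ne_zero k hr
  have : Finite ↥(torsSub (JZero p) (r ^ k)) := finite_Wn (r ^ k) hn
  obtain ⟨E, hE𝕋, ⟨n₁, hkill⟩, -, hEZ⟩ :=
    exists_projector_endo (TJ p S) (aE p S) (r ^ k) (TJ_comm (S := S) hp (r ^ k) hn) N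
  refine ⟨E, hE𝕋, fun w => ⟨?_, n₁, fun l hl hgood => ?_⟩, fun y hy => ?_⟩
  · rw [← map_nsmul, mem_torsSub.1 w.2, map_zero]
  · obtain ⟨l', rfl⟩ := exists_good_list hgood
    rw [← eProd_eq]
    exact hkill (w : JZero p) (mem_torsSub.1 w.2) l' (by rw [← hl, List.length_map])
  · exact hEZ (nMW p (r ^ k)) (fun i => TJ_mem_nMW (r ^ k) i) y (fun l hl => by
      rw [eProd_eq]
      exact hN _ (by rw [List.length_map, hl]) (goodList_map l) y hy)

/-- the projection `J₀(p)[r^k] → V_k` induced by `E`. -/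
def eisProj (E : AddMonoid.End (JZero p))
    (hEV : ∀ w : Wn p (r ^ k), E (w : JZero p) ∈ eisPart p S r k) :
    Wn p (r ^ k) →+ ↥(eisPart p S r k) where
  toFun w := ⟨E (w : JZero p), hEV w⟩
  map_zero' := Subtype.ext (map_zero E)
  map_add' w w' := Subtype.ext (map_add E (w : JZero p) (w' : JZero p))

/-- the morphism of marked modules `(J[r^k], markedH) → 𝒱_k` induced by `E ∈ heckeRing`. -/
def eisHom (E : AddMonoid.End (JZero p)) (hE𝕋 : E ∈ heckeRing p S)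
    (hEV : ∀ w : Wn p (r ^ k), E (w : JZero p) ∈ eisPart p S r k) :
    MarkedHom
      (markedH p (r ^ k) hp hp2 hp3 A hpS hnS (heckeRing p S) heckeRing_equivariant XL hXL)
      (markedEis p S hp hp2 hp3 A hpS r k hnS XL hXL) :=
  factorHom _ (eisIncl p S r k) eisIncl_smul eisIncl_injective
    (toHom ⟨resW (r ^ k) E,
      resW_mem_markedEnd hp hp2 hp3 A hpS hnS (heckeRing p S) heckeRing_equivariant XL hXL hE𝕋⟩)
    (eisProj r k E hEV) (fun _ => Subtype.ext rfl)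

include hdiv hFL in
/-- the Kummer hypotheses on `M = n' • J₀(p)(ℚ)` for the Hecke-stable marking. -/
theorem kumHyp_nMW :
    KumHyp (⊤ : AddSubgroup (JZero p)) (r ^ k) (torsι (JZero p) (r ^ k))
      (markedH p (r ^ k) hp hp2 hp3 A hpS hnS (heckeRing p S) heckeRing_equivariant XL hXL)
      (nMW p n') :=
  kumHypH hp hp2 hp3 A hpS hnS (heckeRing p S) heckeRing_equivariant XL hXL (nMW p n')
    (fixed_of_mem_smul_fixedSub n')
    (fun t ht => smul_fixedSub_stable n' t (heckeRing_equivariant t ht))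
    (by
      rintro _ ⟨z, hz, rfl⟩
      exact hdiv z hz)
    (fun R hR x hx => hFL R (fun σ => fixed_of_mem_smul_fixedSub n' _ hR σ) x hx)

include hdiv hFL in
/-- the localised Kummer map attached to a projector `E`. -/
theorem exists_kumLoc_of_proj (Y : AddSubgroup (JZero p)) (hYM : Y ≤ nMW p n')
    (E : AddMonoid.End (JZero p)) (hE𝕋 : E ∈ heckeRing p S)
    (hEV : ∀ w : Wn p (r ^ k), E (w : JZero p) ∈ eisPart p S r k)
    (hEY : ∀ y ∈ Y, y - E y ∈ nMW p (r ^ k)) :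
    ∃ κ : ↥Y →+ (markedEis p S hp hp2 hp3 A hpS r k hnS XL hXL).H1,
      ∀ y : ↥Y, κ y = 0 → (y : JZero p) ∈ nMW p (r ^ k) :=
  ⟨kumLoc (kumHyp_nMW hp hp2 hp3 A hpS r k hnS XL hXL n' hdiv hFL)
      (eisHom hp hp2 hp3 A hpS r k hnS XL hXL E hE𝕋 hEV) Y hYM,
    fun y hy => kumLoc_eq_zero (kumHyp_nMW hp hp2 hp3 A hpS r k hnS XL hXL n' hdiv hFL)
      (eisHom hp hp2 hp3 A hpS r k hnS XL hXL E hE𝕋 hEV) (eisPart p S r k).subtype
      (fun _ _ => rfl) (fun w => w.2.1) E (heckeRing_equivariant E hE𝕋) (fun _ => rfl) Y hYM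
      (fun y hy => hEY y hy) y hy⟩

include hr hdiv hFL in
/-- **(F-KUMLOC)**: the localised Kummer map of a subgroup `Y ≤ n' • J₀(p)(ℚ)` which is Eisenstein
modulo `r^k • J₀(p)(ℚ)`; its kernel is inside `r^k • J₀(p)(ℚ)`. -/
theorem exists_kumLoc (Y : AddSubgroup (JZero p)) (hYM : Y ≤ nMW p n')
    (hYE : ∃ N : ℕ, ∀ l : List Nat.Primes, l.length = N → GoodList p S l →
      ∀ y ∈ Y, eisProd p l y ∈ nMW p (r ^ k)) :
    ∃ κ : ↥Y →+ (markedEis p S hp hp2 hp3 A hpS r k hnS XL hXL).H1,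
      ∀ y : ↥Y, κ y = 0 → (y : JZero p) ∈ nMW p (r ^ k) :=
  (exists_eisProj (S := S) hp r k hr Y hYE).elim fun E hE =>
    exists_kumLoc_of_proj hp hp2 hp3 A hpS r k hnS XL hXL n' hdiv hFL Y hYM E hE.1 hE.2.1 hE.2.2

set_option synthInstance.maxHeartbeats 400000 in
include hr hdiv hFL in
/-- **the `hsel` binder of F-TOP** (counting form, the shape of `GZ/F/Grow.grow_core`). -/
theorem card_le_of_incongruent (Y : AddSubgroup (JZero p)) (hYM : Y ≤ nMW p n')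
    (hYE : ∃ N : ℕ, ∀ l : List Nat.Primes, l.length = N → GoodList p S l →
      ∀ y ∈ Y, eisProd p l y ∈ nMW p (r ^ k))
    [Finite (markedEis p S hp hp2 hp3 A hpS r k hnS XL hXL).H1]
    (m : ℕ) (y : Fin m → JZero p) (hyY : ∀ j, y j ∈ Y)
    (hinc : ∀ j j', j ≠ j' → y j - y j' ∉ nMW p (r ^ k)) :
    m ≤ Nat.card (markedEis p S hp hp2 hp3 A hpS r k hnS XL hXL).H1 := by
  obtain ⟨κ, hκ⟩ := exists_kumLoc (S := S) hp hp2 hp3 A hpS r k hr hnS XL hXL n' hdiv hFL Y hYM hYE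
  have hinj : Function.Injective fun j : Fin m => κ ⟨y j, hyY j⟩ := by
    intro j j' hjj'
    by_contra hne
    apply hinc j j' hne
    have h0 : κ (⟨y j, hyY j⟩ - ⟨y j', hyY j'⟩) = 0 := by
      rw [map_sub]
      exact sub_eq_zero.mpr hjj'
    exact hκ _ h0
  have := Nat.card_le_card_of_injective _ hinj
  rwa [Nat.card_fin] at this

end Main

end Fermat.Agent.GZ.Kum.LocPlug
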