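/-
GATE-Z (S15) / node (F-KUMLOC), SEAM with (F-SB) (helper79; reply to helper36 6322):
**the marking `𝒱_k` and the localised Kummer map on the carrier `(eisSub p hp S r k hr).U`** of
`GZ/Const/EisPart` (helper36), with the `StableSub` action of `GZ/Dev/Flag` (helper90).

The two `G_ℚ`-actions on `V_k` — `LocPlug.instDistribMulActionEisPart` on `↥(eisPart p S r k)` and
`StableSub.subAction (eisSub p hp S r k hr)` on `↥(eisSub p hp S r k hr).U` — are DEFINITIONALLY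
equal (`inst_eq`, by `rfl`), so `LocPlug.markedEis …` IS a marking of `↥(eisSub p hp S r k hr).U`
and nothing has to be transported: this file only restates the exports of `GZ/Kum/LocPlug` on that
carrier, the one used by the Kolchin flag / (UNIP) / (NUM**) / `GZ/F/SB/SelBound`.

* `inst_eq`               : the two instances agree (`rfl`);
* `markedEisSub`          : `𝒱_k` as a `Marked D_A I_A ↥(eisSub p hp S r k hr).U`;
* `mem_markedEisSub_Wf`   : `Wf = V_k^{I_A}`;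
* `markedEisSub_X_le`     : admissible cochains are (after inclusion into `J₀(p)[r^k]`) in `Xur ⊓ XL`;
* `levelConst_of_mem_X`, `unramified_of_mem_X` : the two `Xur` clauses on `V_k`-valued cochains;
* `exists_kumLocSub`, `card_le_of_incongruentSub` : (F-KUMLOC) on this carrier.
-/
import Mathlib
import Fermat.Agent.GZ.Kum.LocPlug
import Fermat.Agent.GZ.Const.EisPart

set_option autoImplicit false

noncomputable section

open AlgebraicCurve ModularCurve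

namespace Fermat.Agent.GZ.Kum.LocPlugSub

open Fermat.Agent.GZ.Dev Fermat.Agent.GZ.Kum.KumDev Fermat.Agent.GZ.Kum.TorsModel
  Fermat.Agent.GZ.Kum.Plug Fermat.Agent.GZ.Kum.H1Func Fermat.Agent.GZ.Kum.HeckePlug
  Fermat.Agent.GZ.Kum.LocPlug Fermat.Agent.GZ.Const.EisPart Fermat.Agent.GZ.F

local notation "Qb" => AlgebraicClosure ℚ
local notation "GQ" => (AlgebraicClosure ℚ ≃ₐ[ℚ] AlgebraicClosure ℚ)

variable (p : ℕ) [NeZero p] (hp : p.Prime) (S : Finset ℕ) (r k : ℕ) (hr : r ≠ 0)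

/-- the hand-made action of `GZ/Kum/LocPlug` on `↥(eisPart p S r k)` IS the `StableSub` action on
`↥(eisSub p hp S r k hr).U`. -/
theorem inst_eq :
    (instDistribMulActionEisPart p S r k : DistribMulAction GQ ↥(eisPart p S r k)) =
      StableSub.subAction (eisSub p hp S r k hr) := rfl

/-- **`𝒱_k` on the carrier `(eisSub p hp S r k hr).U`.** -/
def markedEisSub (hp2 : p ≠ 2) (hp3 : p ≠ 3) (A : ValuationSubring Qb)
    {Sram : Set ℕ} (hpS : p ∈ Sram)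
    (hnS : ∀ ℓ' : ℕ, ℓ'.Prime → ℓ' ∣ r ^ k → ℓ' ∈ Sram)
    (XL : AddSubgroup (GQ → Wn p (r ^ k))) (hXL : ∀ w : Wn p (r ^ k), dCob GQ w ∈ XL) :
    Marked (A.decompositionSubgroup ℚ) (A.inertiaSubgroupIn ℚ) ↥(eisSub p hp S r k hr).U :=
  markedEis p S hp hp2 hp3 A hpS r k hnS XL hXL

/-- the inclusion `V_k ↪ J₀(p)[r^k]` on the carrier `(eisSub p hp S r k hr).U`. -/
def eisInclSub : ↥(eisSub p hp S r k hr).U →+ Wn p (r ^ k) := eisIncl p S r k

variable {p S r k}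

@[simp] theorem coe_eisInclSub (v : ↥(eisSub p hp S r k hr).U) :
    ((eisInclSub p hp S r k hr v : Wn p (r ^ k)) : JZero p) = (v : JZero p) := rfl

theorem eisInclSub_smul (σ : GQ) (v : ↥(eisSub p hp S r k hr).U) :
    eisInclSub p hp S r k hr (σ • v) = σ • eisInclSub p hp S r k hr v := rfl

theorem eisInclSub_injective : Function.Injective (eisInclSub p hp S r k hr) :=
  eisIncl_injective

section Mark

variable (hp2 : p ≠ 2) (hp3 : p ≠ 3) (A : ValuationSubring Qb)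
  {Sram : Set ℕ} (hpS : p ∈ Sram)
  (hnS : ∀ ℓ' : ℕ, ℓ'.Prime → ℓ' ∣ r ^ k → ℓ' ∈ Sram)
  (XL : AddSubgroup (GQ → Wn p (r ^ k))) (hXL : ∀ w : Wn p (r ^ k), dCob GQ w ∈ XL)

/-- `Wf(𝒱_k) = V_k^{I_A}`. -/
theorem mem_markedEisSub_Wf (v : ↥(eisSub p hp S r k hr).U) :
    v ∈ (markedEisSub p hp S r k hr hp2 hp3 A hpS hnS XL hXL).Wf ↔
      ∀ τ ∈ A.inertiaSubgroupIn ℚ, τ • v = v :=
  mem_markedEis_Wf hp hp2 hp3 A hpS r k hnS XL hXL v

/-- the `hWf` binder of `GZ/F/SB/SelBound`. -/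
theorem markedEisSub_hWf (w : ↥(eisSub p hp S r k hr).U)
    (hw : ∀ τ ∈ A.inertiaSubgroupIn ℚ, τ • w = w) :
    w ∈ (markedEisSub p hp S r k hr hp2 hp3 A hpS hnS XL hXL).Wf :=
  (mem_markedEisSub_Wf hp hr hp2 hp3 A hpS hnS XL hXL w).mpr hw

theorem mem_markedEisSub_X (x : GQ → ↥(eisSub p hp S r k hr).U) :
    x ∈ (markedEisSub p hp S r k hr hp2 hp3 A hpS hnS XL hXL).X ↔
      (fun σ => eisInclSub p hp S r k hr (x σ)) ∈ Xur p (r ^ k) Sram ⊓
        core (EW p (r ^ k) (heckeRing p S) : Set (AddMonoid.End (Wn p (r ^ k)))) XL := Iff.rfl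

/-- the admissible cochains of `𝒱_k` are (after inclusion) in `Xur ⊓ XL`. -/
theorem markedEisSub_X_le {x : GQ → ↥(eisSub p hp S r k hr).U}
    (hx : x ∈ (markedEisSub p hp S r k hr hp2 hp3 A hpS hnS XL hXL).X) :
    (fun σ => eisInclSub p hp S r k hr (x σ)) ∈ Xur p (r ^ k) Sram ⊓ XL :=
  markedEis_X_le hp hp2 hp3 A hpS r k hnS XL hXL hx

/-- first clause of `Xur`: admissible cochains are level-constant. -/
theorem levelConst_of_mem_X {x : GQ → ↥(eisSub p hp S r k hr).U}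
    (hx : x ∈ (markedEisSub p hp S r k hr hp2 hp3 A hpS hnS XL hXL).X) :
    ∃ U : Subgroup GQ, IsOpen (U : Set GQ) ∧ ∀ g : GQ, ∀ s ∈ U, x (g * s) = x g := by
  obtain ⟨U, hU, hxU⟩ := (markedEisSub_X_le hp hr hp2 hp3 A hpS hnS XL hXL hx).1.1
  exact ⟨U, hU, fun g s hs => eisInclSub_injective hp hr (hxU g s hs)⟩

/-- second clause of `Xur`: admissible cochains vanish on the inertia groups at the primes
outside `Sram`. -/
theorem unramified_of_mem_X {x : GQ → ↥(eisSub p hp S r k hr).U}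
    (hx : x ∈ (markedEisSub p hp S r k hr hp2 hp3 A hpS hnS XL hXL).X)
    (ℓ' : ℕ) (hℓ' : ℓ'.Prime) (hS : ℓ' ∉ Sram) (A' : ValuationSubring Qb)
    (hA' : A'.LiesOverPrime ℓ') (σ : GQ) (hσ : σ ∈ A'.inertiaSubgroupIn ℚ) : x σ = 0 := by
  have h := (markedEisSub_X_le hp hr hp2 hp3 A hpS hnS XL hXL hx).1.2 ℓ' hℓ' hS A' hA' σ hσ
  exact eisInclSub_injective hp hr (by rw [map_zero]; exact h)

/-- the local condition `XL`, on `V_k`-valued cochains. -/
theorem incl_mem_XL_of_mem_X {x : GQ → ↥(eisSub p hp S r k hr).U}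
    (hx : x ∈ (markedEisSub p hp S r k hr hp2 hp3 A hpS hnS XL hXL).X) :
    (fun σ => eisInclSub p hp S r k hr (x σ)) ∈ XL :=
  (markedEisSub_X_le hp hr hp2 hp3 A hpS hnS XL hXL hx).2

end Mark

section Main

variable (hp2 : p ≠ 2) (hp3 : p ≠ 3) (A : ValuationSubring Qb)
  {Sram : Set ℕ} (hpS : p ∈ Sram)
  (hnS : ∀ ℓ' : ℕ, ℓ'.Prime → ℓ' ∣ r ^ k → ℓ' ∈ Sram)
  (XL : AddSubgroup (GQ → Wn p (r ^ k))) (hXL : ∀ w : Wn p (r ^ k), dCob GQ w ∈ XL) (n' : ℕ)
  (hdiv : ∀ z : JZero p, (∀ σ : GQ, σ • z = z) →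
    ∃ R : JZero p, r ^ k • R = n' • z ∧ ∀ τ ∈ A.inertiaSubgroupIn ℚ, τ • R = R)
  (hFL : ∀ R : JZero p, (∀ σ : GQ, σ • (r ^ k • R) = r ^ k • R) → ∀ x : GQ → Wn p (r ^ k),
    (∀ σ, torsι (JZero p) (r ^ k) (x σ) = σ • R - R) → x ∈ XL)

include hdiv hFL in
/-- **(F-KUMLOC)** on the carrier `(eisSub p hp S r k hr).U`. -/
theorem exists_kumLocSub (Y : AddSubgroup (JZero p)) (hYM : Y ≤ nMW p n')
    (hYE : ∃ N : ℕ, ∀ l : List Nat.Primes, l.length = N → GoodList p S l →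
      ∀ y ∈ Y, eisProd p l y ∈ nMW p (r ^ k)) :
    ∃ κ : ↥Y →+ (markedEisSub p hp S r k hr hp2 hp3 A hpS hnS XL hXL).H1,
      ∀ y : ↥Y, κ y = 0 → (y : JZero p) ∈ nMW p (r ^ k) :=
  exists_kumLoc (S := S) hp hp2 hp3 A hpS r k hr hnS XL hXL n' hdiv hFL Y hYM hYE

include hdiv hFL in
/-- **the `hsel` binder of F-TOP** (counting form) on the carrier `(eisSub p hp S r k hr).U`. -/
theorem card_le_of_incongruentSub (Y : AddSubgroup (JZero p)) (hYM : Y ≤ nMW p n')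
    (hYE : ∃ N : ℕ, ∀ l : List Nat.Primes, l.length = N → GoodList p S l →
      ∀ y ∈ Y, eisProd p l y ∈ nMW p (r ^ k))
    (hfin : Finite (markedEisSub p hp S r k hr hp2 hp3 A hpS hnS XL hXL).H1)
    (m : ℕ) (y : Fin m → JZero p) (hyY : ∀ j, y j ∈ Y)
    (hinc : ∀ j j', j ≠ j' → y j - y j' ∉ nMW p (r ^ k)) :
    m ≤ Nat.card (markedEisSub p hp S r k hr hp2 hp3 A hpS hnS XL hXL).H1 :=
  @card_le_of_incongruent p _ S hp hp2 hp3 A Sram hpS r k hr hnS XL hXL n' hdiv hFL Y hYM hYE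
    hfin m y hyY hinc

end Main

end Fermat.Agent.GZ.Kum.LocPlugSub
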