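/-
GATE-Z (S15, Mazur block) / node (KUM), vocabulary (helper79): the TWO-DEGREE SELMER COMPLEX of a
MARKED MODULE (helper96 4923 (Δ1), helper31 4957 (1)), Mathlib only.

`G` a group (`G_ℚ`), `D I : Subgroup G` (decomposition / inertia group at the level `p`),
`W` a `G`-module.  A marking `𝒲 : Marked D I W` is

* `Wf : AddSubgroup W`, stable under `D` and fixed pointwise by `I` (the "finite part" at `p`),
* `X : AddSubgroup (G → W)`, the ADMISSIBLE global `1`-cochains (unramified outside `{r, p}`,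
  in `L` at `r`, level-constant, …: an abstract subgroup containing all coboundaries).

Degree-one cochains are triples `(x, y, λ) : (G → W) × (D → W) × W`;
`Z1 𝒲` : `x ∈ X` a cocycle, `y` a `Wf`-valued cocycle on `D` vanishing on `I`
          (inflated from `D/I`), and `x τ - y τ = τ • λ - λ` on `D`;
`B1 𝒲` : the triples `(d w, d w', w - w')`, `w ∈ W`, `w' ∈ Wf`;
`H1 𝒲 := Z1 𝒲 ⧸ B1 𝒲`,  `H0 𝒲 := W^G ⊓ Wf`;
`Marked.Hom`, `H1map` : functoriality.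
-/
import Mathlib

set_option autoImplicit false

namespace Fermat.Agent.GZ.Kum.Sel

section Defs

variable {G : Type*} [Group G] (D I : Subgroup G)

/-- a marking of the `G`-module `W`. -/
structure Marked (W : Type*) [AddCommGroup W] [DistribMulAction G W] where
  /-- the finite part at `p` -/
  Wf : AddSubgroup W
  /-- the admissible global `1`-cochains -/
  X : AddSubgroup (G → W)
  smul_mem_Wf : ∀ τ ∈ D, ∀ w ∈ Wf, τ • w ∈ Wf
  smul_eq_Wf : ∀ τ ∈ I, ∀ w ∈ Wf, τ • w = w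
  cob_mem_X : ∀ w : W, (fun σ : G => σ • w - w) ∈ X

/-- degree-one cochains of the two-degree complex: `(x, y, λ)`. -/
abbrev Coch (W : Type*) : Type _ := (G → W) × (D → W) × W

end Defs

section Complex

variable {G : Type*} [Group G] {D I : Subgroup G}
variable {W : Type*} [AddCommGroup W] [DistribMulAction G W] (𝒲 : Marked D I W)

/-- the defining predicate of `Z1`. -/
def Marked.IsZ1 (c : Coch D W) : Prop :=
  c.1 ∈ 𝒲.X ∧ (∀ σ τ : G, c.1 (σ * τ) = c.1 σ + σ • c.1 τ) ∧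
    (∀ τ : D, c.2.1 τ ∈ 𝒲.Wf) ∧
    (∀ τ τ' : D, c.2.1 (τ * τ') = c.2.1 τ + (τ : G) • c.2.1 τ') ∧
    (∀ τ : D, (τ : G) ∈ I → c.2.1 τ = 0) ∧
    ∀ τ : D, c.1 τ - c.2.1 τ = (τ : G) • c.2.2 - c.2.2

/-- the `1`-cocycles of the two-degree Selmer complex. -/
def Marked.Z1 : AddSubgroup (Coch D W) where
  carrier := {c | 𝒲.IsZ1 c}
  zero_mem' := by
    refine ⟨𝒲.X.zero_mem, fun σ τ => ?_, fun τ => 𝒲.Wf.zero_mem, fun τ τ' => ?_, fun τ _ => rfl,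
      fun τ => ?_⟩
    · show (0 : W) = 0 + σ • (0 : W)
      rw [smul_zero, add_zero]
    · show (0 : W) = 0 + (τ : G) • (0 : W)
      rw [smul_zero, add_zero]
    · show (0 : W) - 0 = (τ : G) • (0 : W) - 0
      rw [smul_zero]
  add_mem' := by
    rintro c c' ⟨h1, h2, h3, h4, h5, h6⟩ ⟨h1', h2', h3', h4', h5', h6'⟩
    refine ⟨𝒲.X.add_mem h1 h1', fun σ τ => ?_, fun τ => 𝒲.Wf.add_mem (h3 τ) (h3' τ),
      fun τ τ' => ?_, fun τ hτ => ?_, fun τ => ?_⟩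
    · show c.1 (σ * τ) + c'.1 (σ * τ) = c.1 σ + c'.1 σ + σ • (c.1 τ + c'.1 τ)
      rw [h2, h2', smul_add]
      abel
    · show c.2.1 (τ * τ') + c'.2.1 (τ * τ') =
        c.2.1 τ + c'.2.1 τ + (τ : G) • (c.2.1 τ' + c'.2.1 τ')
      rw [h4, h4', smul_add]
      abel
    · show c.2.1 τ + c'.2.1 τ = 0
      rw [h5 τ hτ, h5' τ hτ, add_zero]
    · show c.1 τ + c'.1 τ - (c.2.1 τ + c'.2.1 τ) = (τ : G) • (c.2.2 + c'.2.2) - (c.2.2 + c'.2.2)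
      have e : c.1 τ + c'.1 τ - (c.2.1 τ + c'.2.1 τ) =
          (c.1 τ - c.2.1 τ) + (c'.1 τ - c'.2.1 τ) := by abel
      rw [e, h6, h6', smul_add]
      abel
  neg_mem' := by
    rintro c ⟨h1, h2, h3, h4, h5, h6⟩
    refine ⟨𝒲.X.neg_mem h1, fun σ τ => ?_, fun τ => 𝒲.Wf.neg_mem (h3 τ),
      fun τ τ' => ?_, fun τ hτ => ?_, fun τ => ?_⟩
    · show -c.1 (σ * τ) = -c.1 σ + σ • (-c.1 τ)
      rw [h2, smul_neg]
      abel
    · show -c.2.1 (τ * τ') = -c.2.1 τ + (τ : G) • (-c.2.1 τ')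
      rw [h4, smul_neg]
      abel
    · show -c.2.1 τ = 0
      rw [h5 τ hτ, neg_zero]
    · show -c.1 τ - -c.2.1 τ = (τ : G) • (-c.2.2) - -c.2.2
      have e : -c.1 τ - -c.2.1 τ = -(c.1 τ - c.2.1 τ) := by abel
      rw [e, h6, smul_neg]
      abel

theorem Marked.mem_Z1 {c : Coch D W} : c ∈ 𝒲.Z1 ↔ 𝒲.IsZ1 c := Iff.rfl

/-- the coboundary map `(w, w') ↦ (d w, d w', w - w')`. -/
def Marked.bdry : W × 𝒲.Wf →+ Coch D W where
  toFun p := (fun σ => σ • p.1 - p.1, fun τ => (τ : G) • (p.2 : W) - (p.2 : W), p.1 - (p.2 : W))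
  map_zero' := by
    refine Prod.ext (funext fun σ => ?_) (Prod.ext (funext fun τ => ?_) ?_)
    · show σ • (0 : W) - 0 = 0
      rw [smul_zero, sub_zero]
    · show (τ : G) • (0 : W) - 0 = 0
      rw [smul_zero, sub_zero]
    · show (0 : W) - 0 = 0
      rw [sub_zero]
  map_add' := by
    intro p p'
    refine Prod.ext (funext fun σ => ?_) (Prod.ext (funext fun τ => ?_) ?_)
    · show σ • (p.1 + p'.1) - (p.1 + p'.1) = (σ • p.1 - p.1) + (σ • p'.1 - p'.1)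
      rw [smul_add]
      abel
    · show (τ : G) • ((p.2 : W) + (p'.2 : W)) - ((p.2 : W) + (p'.2 : W)) =
        ((τ : G) • (p.2 : W) - (p.2 : W)) + ((τ : G) • (p'.2 : W) - (p'.2 : W))
      rw [smul_add]
      abel
    · show (p.1 + p'.1) - ((p.2 : W) + (p'.2 : W)) = (p.1 - (p.2 : W)) + (p'.1 - (p'.2 : W))
      abel

/-- the `1`-coboundaries of the two-degree Selmer complex. -/
def Marked.B1 : AddSubgroup (Coch D W) := 𝒲.bdry.range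

theorem Marked.mem_B1 {c : Coch D W} :
    c ∈ 𝒲.B1 ↔ ∃ w : W, ∃ w' ∈ 𝒲.Wf, c.1 = (fun σ => σ • w - w) ∧
      c.2.1 = (fun τ : D => (τ : G) • w' - w') ∧ c.2.2 = w - w' := by
  constructor
  · rintro ⟨⟨w, w'⟩, rfl⟩
    exact ⟨w, w', w'.2, rfl, rfl, rfl⟩
  · rintro ⟨w, w', hw', h1, h2, h3⟩
    refine ⟨(w, ⟨w', hw'⟩), ?_⟩
    exact Prod.ext h1.symm (Prod.ext h2.symm h3.symm)

theorem Marked.B1_le_Z1 : 𝒲.B1 ≤ 𝒲.Z1 := by
  rintro c ⟨⟨w, w'⟩, rfl⟩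
  refine ⟨𝒲.cob_mem_X w, fun σ τ => ?_, fun τ => ?_, fun τ τ' => ?_, fun τ hτ => ?_, fun τ => ?_⟩
  · show (σ * τ) • w - w = (σ • w - w) + σ • (τ • w - w)
    rw [mul_smul, smul_sub]
    abel
  · exact 𝒲.Wf.sub_mem (𝒲.smul_mem_Wf τ τ.2 w' w'.2) w'.2
  · show ((τ * τ' : D) : G) • (w' : W) - w' =
      ((τ : G) • (w' : W) - w') + (τ : G) • ((τ' : G) • (w' : W) - w')
    rw [Subgroup.coe_mul, mul_smul, smul_sub]
    abel
  · show (τ : G) • (w' : W) - w' = 0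
    rw [𝒲.smul_eq_Wf τ hτ w' w'.2, sub_self]
  · show ((τ : G) • w - w) - ((τ : G) • (w' : W) - w') = (τ : G) • (w - (w' : W)) - (w - (w' : W))
    rw [smul_sub]
    abel

/-- `H~¹` of the marked module. -/
def Marked.H1 : Type _ := ↥𝒲.Z1 ⧸ (𝒲.B1.addSubgroupOf 𝒲.Z1)

instance Marked.instAddCommGroupH1 : AddCommGroup 𝒲.H1 :=
  inferInstanceAs (AddCommGroup (↥𝒲.Z1 ⧸ (𝒲.B1.addSubgroupOf 𝒲.Z1)))

/-- the class of a cocycle. -/
def Marked.H1mk : ↥𝒲.Z1 →+ 𝒲.H1 := QuotientAddGroup.mk' (𝒲.B1.addSubgroupOf 𝒲.Z1)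

theorem Marked.H1mk_surjective : Function.Surjective 𝒲.H1mk :=
  QuotientAddGroup.mk'_surjective _

theorem Marked.H1mk_eq_zero_iff (c : ↥𝒲.Z1) : 𝒲.H1mk c = 0 ↔ (c : Coch D W) ∈ 𝒲.B1 := by
  show QuotientAddGroup.mk' (𝒲.B1.addSubgroupOf 𝒲.Z1) c = 0 ↔ _
  rw [QuotientAddGroup.mk'_apply, QuotientAddGroup.eq_zero_iff, AddSubgroup.mem_addSubgroupOf]

theorem Marked.H1mk_eq_iff (c c' : ↥𝒲.Z1) :
    𝒲.H1mk c = 𝒲.H1mk c' ↔ (c : Coch D W) - c' ∈ 𝒲.B1 := by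
  rw [← sub_eq_zero, ← map_sub, 𝒲.H1mk_eq_zero_iff]
  rfl

/-- `H~⁰` of the marked module. -/
def Marked.H0 : AddSubgroup W where
  carrier := {w | (∀ σ : G, σ • w = w) ∧ w ∈ 𝒲.Wf}
  zero_mem' := ⟨fun σ => smul_zero σ, 𝒲.Wf.zero_mem⟩
  add_mem' := fun ⟨h1, h2⟩ ⟨h1', h2'⟩ =>
    ⟨fun σ => by rw [smul_add, h1 σ, h1' σ], 𝒲.Wf.add_mem h2 h2'⟩
  neg_mem' := fun ⟨h1, h2⟩ => ⟨fun σ => by rw [smul_neg, h1 σ], 𝒲.Wf.neg_mem h2⟩

end Complex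

section Functoriality

variable {G : Type*} [Group G] {D I : Subgroup G}
variable {W : Type*} [AddCommGroup W] [DistribMulAction G W]
variable {W' : Type*} [AddCommGroup W'] [DistribMulAction G W']
variable {W'' : Type*} [AddCommGroup W''] [DistribMulAction G W'']

/-- a morphism of marked modules. -/
structure Marked.Hom (𝒲 : Marked D I W) (𝒲' : Marked D I W') where
  /-- the underlying additive map -/
  f : W →+ W'
  map_smul : ∀ (σ : G) (w : W), f (σ • w) = σ • f w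
  map_Wf : ∀ w ∈ 𝒲.Wf, f w ∈ 𝒲'.Wf
  map_X : ∀ x ∈ 𝒲.X, (fun σ => f (x σ)) ∈ 𝒲'.X

/-- post-composition of cochains with an additive map. -/
def cochMap (D : Subgroup G) (f : W →+ W') : Coch D W →+ Coch D W' where
  toFun c := (fun σ => f (c.1 σ), fun τ => f (c.2.1 τ), f c.2.2)
  map_zero' := by
    refine Prod.ext (funext fun σ => ?_) (Prod.ext (funext fun τ => ?_) ?_)
    · exact map_zero f
    · exact map_zero f
    · exact map_zero f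
  map_add' := by
    intro c c'
    refine Prod.ext (funext fun σ => ?_) (Prod.ext (funext fun τ => ?_) ?_)
    · exact map_add f _ _
    · exact map_add f _ _
    · exact map_add f _ _

variable {𝒲 : Marked D I W} {𝒲' : Marked D I W'} {𝒲'' : Marked D I W''}

theorem Marked.Hom.cochMap_mem_Z1 (φ : 𝒲.Hom 𝒲') {c : Coch D W} (hc : c ∈ 𝒲.Z1) :
    cochMap D φ.f c ∈ 𝒲'.Z1 := by
  obtain ⟨h1, h2, h3, h4, h5, h6⟩ := hc
  refine ⟨φ.map_X _ h1, fun σ τ => ?_, fun τ => φ.map_Wf _ (h3 τ), fun τ τ' => ?_,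
    fun τ hτ => ?_, fun τ => ?_⟩
  · show φ.f (c.1 (σ * τ)) = φ.f (c.1 σ) + σ • φ.f (c.1 τ)
    rw [h2, map_add, φ.map_smul]
  · show φ.f (c.2.1 (τ * τ')) = φ.f (c.2.1 τ) + (τ : G) • φ.f (c.2.1 τ')
    rw [h4, map_add, φ.map_smul]
  · show φ.f (c.2.1 τ) = 0
    rw [h5 τ hτ, map_zero]
  · show φ.f (c.1 τ) - φ.f (c.2.1 τ) = (τ : G) • φ.f c.2.2 - φ.f c.2.2
    rw [← map_sub, h6, map_sub, φ.map_smul]

theorem Marked.Hom.cochMap_mem_B1 (φ : 𝒲.Hom 𝒲') {c : Coch D W} (hc : c ∈ 𝒲.B1) :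
    cochMap D φ.f c ∈ 𝒲'.B1 := by
  obtain ⟨w, w', hw', h1, h2, h3⟩ := 𝒲.mem_B1.1 hc
  refine 𝒲'.mem_B1.2 ⟨φ.f w, φ.f w', φ.map_Wf _ hw', funext fun σ => ?_, funext fun τ => ?_, ?_⟩
  · show φ.f (c.1 σ) = σ • φ.f w - φ.f w
    rw [h1, map_sub, φ.map_smul]
  · show φ.f (c.2.1 τ) = (τ : G) • φ.f w' - φ.f w'
    rw [h2, map_sub, φ.map_smul]
  · show φ.f c.2.2 = φ.f w - φ.f w'
    rw [h3, map_sub]

/-- the map on cocycles induced by a morphism of marked modules. -/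
def Marked.Hom.Z1map (φ : 𝒲.Hom 𝒲') : ↥𝒲.Z1 →+ ↥𝒲'.Z1 where
  toFun c := ⟨cochMap D φ.f (c : Coch D W), φ.cochMap_mem_Z1 c.2⟩
  map_zero' := Subtype.ext (map_zero (cochMap D φ.f))
  map_add' c c' := Subtype.ext (map_add (cochMap D φ.f) (c : Coch D W) (c' : Coch D W))

/-- **functoriality of `H~¹`**. -/
def Marked.Hom.H1map (φ : 𝒲.Hom 𝒲') : 𝒲.H1 →+ 𝒲'.H1 :=
  QuotientAddGroup.map (𝒲.B1.addSubgroupOf 𝒲.Z1) (𝒲'.B1.addSubgroupOf 𝒲'.Z1) φ.Z1map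
    (fun c hc => by
      rw [AddSubgroup.mem_comap, AddSubgroup.mem_addSubgroupOf]
      exact φ.cochMap_mem_B1 (AddSubgroup.mem_addSubgroupOf.1 hc))

theorem Marked.Hom.H1map_mk (φ : 𝒲.Hom 𝒲') (c : ↥𝒲.Z1) :
    φ.H1map (𝒲.H1mk c) = 𝒲'.H1mk (φ.Z1map c) := rfl

/-- the identity morphism. -/
def Marked.Hom.id (𝒲 : Marked D I W) : 𝒲.Hom 𝒲 where
  f := AddMonoidHom.id W
  map_smul _ _ := rfl
  map_Wf _ h := h
  map_X _ h := h

/-- composition of morphisms. -/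
def Marked.Hom.comp (ψ : 𝒲'.Hom 𝒲'') (φ : 𝒲.Hom 𝒲') : 𝒲.Hom 𝒲'' where
  f := ψ.f.comp φ.f
  map_smul σ w := by
    show ψ.f (φ.f (σ • w)) = σ • ψ.f (φ.f w)
    rw [φ.map_smul, ψ.map_smul]
  map_Wf w h := ψ.map_Wf _ (φ.map_Wf w h)
  map_X x h := ψ.map_X _ (φ.map_X x h)

theorem Marked.Hom.H1map_id (𝒲 : Marked D I W) (a : 𝒲.H1) : (Marked.Hom.id 𝒲).H1map a = a := by
  obtain ⟨c, rfl⟩ := 𝒲.H1mk_surjective a
  rfl

theorem Marked.Hom.H1map_comp (ψ : 𝒲'.Hom 𝒲'') (φ : 𝒲.Hom 𝒲') (a : 𝒲.H1) :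
    (ψ.comp φ).H1map a = ψ.H1map (φ.H1map a) := by
  obtain ⟨c, rfl⟩ := 𝒲.H1mk_surjective a
  rfl

end Functoriality

end Fermat.Agent.GZ.Kum.Sel
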