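/-
GATE-Z (S15, Mazur block) / node (KUM), ABSTRACT core (helper79), Mathlib + `GZ/Kum/Sel` only.

`G` a group, `D I : Subgroup G` (`I` normal in `D`), `J` a `G`-module (`J₀(p)(ℚ̄)`),
`J0 : AddSubgroup J` stable under `D` (the classes reducing into the connected component at `p`),
`r : ℕ`, `ι : W →+ J` an equivariant model of the `r`-torsion `J[r]`, `𝒱 : Marked D I W` a marking
with `Wf = {w | ι w ∈ J0, fixed by I}`, `M ≤ M0 := J^G ⊓ J0` a subgroup of rational classes.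
Hypotheses (`KumHyp`): every class of `M` is `r`-divisible inside the `I`-fixed part of `J0`
((P-a) / (LOCP*) of LOC-p), and the Kummer cochains `σ ↦ σ R - R` of classes of `M` are admissible
(`∈ 𝒱.X`).  [All-`k` version of helper20 5806 R1: `r := r₀ ^ k`, `J0 := ⊤` (so `Wf = W^I`, and
`H1 𝒱` is the plain Selmer group: unramified at `p`), `M := n • J^G`.]

For `z ∈ M` and roots `r R = z`, `r Rp = z`, `Rp ∈ J0` fixed by `I`:
  `x σ := σ R - R`,  `y τ := τ Rp - Rp` (`τ ∈ D`),  `λ := R - Rp`      (a cocycle of `Sel.Z1 𝒱`).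

* `kum : M →+ H1 𝒱`, `kum_eq_mk` (any choice of roots computes it);
* `kum_eq_zero_iff : kum z = 0 ↔ ∃ z0 ∈ M0, r • z0 = z`      (so `M / (M ∩ r M0) ↪ H~¹(𝒱)`);
* `kum_equivariant` : for `T : J →+ J` commuting with `G`, `T J0 ⊆ J0`, `T M ⊆ M`, and a marked
  endomorphism `φ` of `𝒱` with `ι ∘ φ = T ∘ ι`:  `kum (T z) = φ.H1map (kum z)`  (Hecke equivariance);
* `endOfHom` : the marked endomorphism induced by such a `T` (given `T ∘ X ⊆ X`).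
-/
import Fermat.Agent.GZ.Kum.Sel

set_option autoImplicit false

namespace Fermat.Agent.GZ.Kum.Abs

open Fermat.Agent.GZ.Kum.Sel

noncomputable section

variable {G : Type*} [Group G] {D I : Subgroup G}
variable {J : Type*} [AddCommGroup J] [DistribMulAction G J]
variable {W : Type*} [AddCommGroup W] [DistribMulAction G W]

/-- the rational classes lying in `J0`. -/
def M0 (G : Type*) [Group G] {J : Type*} [AddCommGroup J] [DistribMulAction G J]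
    (J0 : AddSubgroup J) : AddSubgroup J where
  carrier := {z | (∀ σ : G, σ • z = z) ∧ z ∈ J0}
  zero_mem' := ⟨fun σ => smul_zero σ, J0.zero_mem⟩
  add_mem' := fun ⟨h1, h2⟩ ⟨h1', h2'⟩ => ⟨fun σ => by rw [smul_add, h1 σ, h1' σ], J0.add_mem h2 h2'⟩
  neg_mem' := fun ⟨h1, h2⟩ => ⟨fun σ => by rw [smul_neg, h1 σ], J0.neg_mem h2⟩

theorem mem_M0 {J0 : AddSubgroup J} {z : J} : z ∈ M0 G J0 ↔ (∀ σ : G, σ • z = z) ∧ z ∈ J0 :=
  Iff.rfl

theorem smul_nsmul_comm (σ : G) (m : ℕ) (x : J) : σ • (m • x) = m • (σ • x) :=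
  map_nsmul (DistribSMul.toAddMonoidHom J σ) m x

variable (J0 : AddSubgroup J) (r : ℕ) (ι : W →+ J) (𝒱 : Marked D I W) (M : AddSubgroup J)

/-- the hypotheses of the abstract Kummer triple map. -/
structure KumHyp : Prop where
  hinj : Function.Injective ι
  hkill : ∀ w : W, r • ι w = 0
  htors : ∀ t : J, r • t = 0 → ∃ w : W, ι w = t
  hequiv : ∀ (σ : G) (w : W), ι (σ • w) = σ • ι w
  /-- `I` is normal in `D` -/
  hnorm : ∀ τ ∈ D, ∀ τ' ∈ I, τ⁻¹ * τ' * τ ∈ I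
  /-- `J0` is stable under `D` -/
  hJ0 : ∀ τ ∈ D, ∀ z ∈ J0, τ • z ∈ J0
  /-- the finite part of the marking -/
  hWf : ∀ w : W, w ∈ 𝒱.Wf ↔ ι w ∈ J0 ∧ ∀ τ ∈ I, τ • ι w = ι w
  /-- `M` consists of rational classes of `J0` -/
  hM : M ≤ M0 G J0
  /-- (P-a): the classes of `M` are divisible by `r` inside the `I`-fixed part of `J0` -/
  hdiv : ∀ z ∈ M, ∃ Rp ∈ J0, r • Rp = z ∧ ∀ τ ∈ I, τ • Rp = Rp
  /-- the Kummer cochains of the classes of `M` are admissible -/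
  hXk : ∀ R : J, r • R ∈ M → ∀ x : G → W, (∀ σ, ι (x σ) = σ • R - R) → x ∈ 𝒱.X

/-- a choice of roots of `z`. -/
structure Roots (I : Subgroup G) (J0 : AddSubgroup J) (r : ℕ) (z : J) where
  /-- a global root -/
  R : J
  /-- a root in `J0` fixed by `I` -/
  Rp : J
  hR : r • R = z
  hRp : r • Rp = z
  hRp0 : Rp ∈ J0
  hRpI : ∀ τ ∈ I, τ • Rp = Rp

variable {J0 r ι 𝒱 M}

section Trip

variable (h : KumHyp J0 r ι 𝒱 M)

/-- the inverse of `ι` on `r`-torsion. -/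
def lift (t : J) (ht : r • t = 0) : W := (h.htors t ht).choose

theorem ι_lift (t : J) (ht : r • t = 0) : ι (lift h t ht) = t := (h.htors t ht).choose_spec

include h in
theorem eq_of_ι_eq {w w' : W} (e : ι w = ι w') : w = w' := h.hinj e

theorem nsmul_smul_sub {z R : J} (hz : ∀ σ : G, σ • z = z) (hR : r • R = z) (σ : G) :
    r • (σ • R - R) = 0 := by
  rw [nsmul_sub, ← smul_nsmul_comm, hR, hz σ, sub_self]

theorem nsmul_sub_roots {z R Rp : J} (hR : r • R = z) (hRp : r • Rp = z) : r • (R - Rp) = 0 := by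
  rw [nsmul_sub, hR, hRp, sub_self]

variable {z : J} (hz : z ∈ M) (ρ : Roots I J0 r z)

/-- the Kummer triple `(σ ↦ σ R - R, τ ↦ τ Rp - Rp, R - Rp)` of a choice of roots. -/
def trip : Coch D W :=
  (fun σ => lift h (σ • ρ.R - ρ.R) (nsmul_smul_sub (mem_M0.1 (h.hM hz)).1 ρ.hR σ),
    fun τ => lift h ((τ : G) • ρ.Rp - ρ.Rp) (nsmul_smul_sub (mem_M0.1 (h.hM hz)).1 ρ.hRp (τ : G)),
    lift h (ρ.R - ρ.Rp) (nsmul_sub_roots ρ.hR ρ.hRp))

theorem ι_trip_x (σ : G) : ι ((trip h hz ρ).1 σ) = σ • ρ.R - ρ.R :=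
  ι_lift h (σ • ρ.R - ρ.R) (nsmul_smul_sub (mem_M0.1 (h.hM hz)).1 ρ.hR σ)

theorem ι_trip_y (τ : D) : ι ((trip h hz ρ).2.1 τ) = (τ : G) • ρ.Rp - ρ.Rp :=
  ι_lift h ((τ : G) • ρ.Rp - ρ.Rp) (nsmul_smul_sub (mem_M0.1 (h.hM hz)).1 ρ.hRp (τ : G))

theorem ι_trip_lam : ι (trip h hz ρ).2.2 = ρ.R - ρ.Rp :=
  ι_lift h (ρ.R - ρ.Rp) (nsmul_sub_roots ρ.hR ρ.hRp)

theorem trip_mem_Z1 : trip h hz ρ ∈ 𝒱.Z1 := by
  refine ⟨?_, fun σ τ => ?_, fun τ => ?_, fun τ τ' => ?_, fun τ hτ => ?_, fun τ => ?_⟩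
  · refine h.hXk ρ.R ?_ _ (fun σ => ι_trip_x h hz ρ σ)
    rw [ρ.hR]
    exact hz
  · apply h.hinj
    rw [map_add, h.hequiv, ι_trip_x, ι_trip_x, ι_trip_x, mul_smul, smul_sub]
    abel
  · rw [h.hWf, ι_trip_y]
    refine ⟨J0.sub_mem (h.hJ0 τ τ.2 _ ρ.hRp0) ρ.hRp0, fun τ' hτ' => ?_⟩
    have h1 : (τ' * (τ : G)) • ρ.Rp = (τ : G) • ρ.Rp := by
      have e : τ' * (τ : G) = (τ : G) * ((τ : G)⁻¹ * τ' * (τ : G)) := by group
      rw [e, mul_smul, ρ.hRpI _ (h.hnorm τ τ.2 τ' hτ')]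
    rw [smul_sub, ← mul_smul, h1, ρ.hRpI τ' hτ']
  · apply h.hinj
    rw [map_add, h.hequiv, ι_trip_y, ι_trip_y, ι_trip_y, Subgroup.coe_mul, mul_smul, smul_sub]
    abel
  · apply h.hinj
    rw [ι_trip_y, map_zero, ρ.hRpI τ hτ, sub_self]
  · apply h.hinj
    rw [map_sub, map_sub, h.hequiv, ι_trip_x, ι_trip_y, ι_trip_lam, smul_sub]
    abel

/-- two choices of roots give cohomologous triples. -/
theorem trip_sub_mem_B1 (ρ' : Roots I J0 r z) : trip h hz ρ' - trip h hz ρ ∈ 𝒱.B1 := by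
  have hw : r • (ρ'.R - ρ.R) = 0 := by rw [nsmul_sub, ρ'.hR, ρ.hR, sub_self]
  have hw' : r • (ρ'.Rp - ρ.Rp) = 0 := by rw [nsmul_sub, ρ'.hRp, ρ.hRp, sub_self]
  refine 𝒱.mem_B1.2 ⟨lift h _ hw, lift h _ hw', ?_, funext fun σ => ?_, funext fun τ => ?_, ?_⟩
  · rw [h.hWf, ι_lift]
    refine ⟨J0.sub_mem ρ'.hRp0 ρ.hRp0, fun τ hτ => ?_⟩
    rw [smul_sub, ρ'.hRpI τ hτ, ρ.hRpI τ hτ]
  · apply h.hinj
    show ι ((trip h hz ρ').1 σ - (trip h hz ρ).1 σ) = _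
    rw [map_sub, map_sub, h.hequiv, ι_trip_x, ι_trip_x, ι_lift, smul_sub]
    abel
  · apply h.hinj
    show ι ((trip h hz ρ').2.1 τ - (trip h hz ρ).2.1 τ) = _
    rw [map_sub, map_sub, h.hequiv, ι_trip_y, ι_trip_y, ι_lift, smul_sub]
    abel
  · apply h.hinj
    show ι ((trip h hz ρ').2.2 - (trip h hz ρ).2.2) = _
    rw [map_sub, map_sub, ι_trip_lam, ι_trip_lam, ι_lift, ι_lift]
    abel

include h hz in
/-- roots exist. -/
theorem nonempty_roots : Nonempty (Roots I J0 r z) := by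
  obtain ⟨Rp, hRp0, hRp, hRpI⟩ := h.hdiv z hz
  exact ⟨⟨Rp, Rp, hRp, hRp, hRp0, hRpI⟩⟩

/-- the sum of two choices of roots. -/
def Roots.add {z z' : J} (ρ : Roots I J0 r z) (ρ' : Roots I J0 r z') : Roots I J0 r (z + z') where
  R := ρ.R + ρ'.R
  Rp := ρ.Rp + ρ'.Rp
  hR := by rw [nsmul_add, ρ.hR, ρ'.hR]
  hRp := by rw [nsmul_add, ρ.hRp, ρ'.hRp]
  hRp0 := J0.add_mem ρ.hRp0 ρ'.hRp0
  hRpI := fun τ hτ => by rw [smul_add, ρ.hRpI τ hτ, ρ'.hRpI τ hτ]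

theorem trip_add {z' : J} (hz' : z' ∈ M) (ρ' : Roots I J0 r z') :
    trip h (M.add_mem hz hz') (ρ.add ρ') = trip h hz ρ + trip h hz' ρ' := by
  refine Prod.ext (funext fun σ => ?_) (Prod.ext (funext fun τ => ?_) ?_)
  · apply h.hinj
    show _ = ι ((trip h hz ρ).1 σ + (trip h hz' ρ').1 σ)
    rw [map_add, ι_trip_x, ι_trip_x, ι_trip_x]
    show σ • (ρ.R + ρ'.R) - (ρ.R + ρ'.R) = _
    rw [smul_add]
    abel
  · apply h.hinj
    show _ = ι ((trip h hz ρ).2.1 τ + (trip h hz' ρ').2.1 τ)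
    rw [map_add, ι_trip_y, ι_trip_y, ι_trip_y]
    show (τ : G) • (ρ.Rp + ρ'.Rp) - (ρ.Rp + ρ'.Rp) = _
    rw [smul_add]
    abel
  · apply h.hinj
    show _ = ι ((trip h hz ρ).2.2 + (trip h hz' ρ').2.2)
    rw [map_add, ι_trip_lam, ι_trip_lam, ι_trip_lam]
    show (ρ.R + ρ'.R) - (ρ.Rp + ρ'.Rp) = _
    abel

end Trip

section Kum

variable (h : KumHyp J0 r ι 𝒱 M)

/-- the Kummer class of `z ∈ M0` (via a chosen pair of roots). -/
def kumFun (z : ↥M) : 𝒱.H1 :=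
  𝒱.H1mk ⟨trip h z.2 (nonempty_roots h z.2).some, trip_mem_Z1 h z.2 _⟩

/-- any choice of roots computes the Kummer class. -/
theorem kumFun_eq_mk (z : ↥M) (ρ : Roots I J0 r (z : J)) :
    kumFun h z = 𝒱.H1mk ⟨trip h z.2 ρ, trip_mem_Z1 h z.2 ρ⟩ := by
  unfold kumFun
  rw [𝒱.H1mk_eq_iff]
  exact trip_sub_mem_B1 h z.2 ρ _

/-- **the Kummer triple map** `M0 →+ H~¹(𝒱)`. -/
def kum : ↥M →+ 𝒱.H1 :=
  AddMonoidHom.mk' (kumFun h) (fun z z' => by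
    obtain ⟨ρ⟩ := nonempty_roots (I := I) h z.2
    obtain ⟨ρ'⟩ := nonempty_roots (I := I) h z'.2
    rw [kumFun_eq_mk h z ρ, kumFun_eq_mk h z' ρ', kumFun_eq_mk h (z + z') (ρ.add ρ'), ← map_add]
    congr 1
    exact Subtype.ext (trip_add h z.2 ρ z'.2 ρ'))

theorem kum_eq_mk (z : ↥M) (ρ : Roots I J0 r (z : J)) :
    kum h z = 𝒱.H1mk ⟨trip h z.2 ρ, trip_mem_Z1 h z.2 ρ⟩ := kumFun_eq_mk h z ρ

/-- **the kernel of the Kummer triple map is `r • M0`.** -/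
theorem kum_eq_zero_iff (z : ↥M) :
    kum h z = 0 ↔ ∃ z0 ∈ M0 G J0, r • z0 = (z : J) := by
  constructor
  · intro hk
    obtain ⟨ρ⟩ := nonempty_roots (I := I) h z.2
    rw [kum_eq_mk h z ρ, 𝒱.H1mk_eq_zero_iff] at hk
    obtain ⟨w, w', hw', hx, -, hlam⟩ := 𝒱.mem_B1.1 hk
    have hw'0 : ι w' ∈ J0 := ((h.hWf w').1 hw').1
    refine ⟨ρ.R - ι w, ⟨fun σ => ?_, ?_⟩, ?_⟩
    · have e := congrArg ι (congrFun hx σ)
      rw [ι_trip_x, map_sub, h.hequiv] at e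
      rw [smul_sub]
      have e2 : σ • ρ.R - σ • ι w - (ρ.R - ι w) = 0 := by
        have : σ • ρ.R - σ • ι w - (ρ.R - ι w) = (σ • ρ.R - ρ.R) - (σ • ι w - ι w) := by abel
        rw [this, e, sub_self]
      exact sub_eq_zero.1 e2
    · have e := congrArg ι hlam
      rw [ι_trip_lam, map_sub] at e
      have e2 : ρ.R - ι w = ρ.Rp - ι w' := by
        have : ρ.R - ι w = (ρ.R - ρ.Rp) - ι w + ρ.Rp := by abel
        rw [this, e]
        abel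
      rw [e2]
      exact J0.sub_mem ρ.hRp0 hw'0
    · rw [nsmul_sub, ρ.hR, h.hkill, sub_zero]
  · rintro ⟨z0, hz0, hz0r⟩
    obtain ⟨ρ, hρR, hρRp⟩ : ∃ ρ : Roots I J0 r (z : J), ρ.R = z0 ∧ ρ.Rp = z0 :=
      ⟨⟨z0, z0, hz0r, hz0r, hz0.2, fun τ _ => hz0.1 τ⟩, rfl, rfl⟩
    rw [kum_eq_mk h z ρ, 𝒱.H1mk_eq_zero_iff]
    have h0 : trip h z.2 ρ = 0 := by
      refine Prod.ext (funext fun σ => ?_) (Prod.ext (funext fun τ => ?_) ?_)
      · apply h.hinj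
        rw [ι_trip_x, hρR, hz0.1 σ, sub_self]
        exact (map_zero ι).symm
      · apply h.hinj
        rw [ι_trip_y, hρRp, hz0.1 τ, sub_self]
        exact (map_zero ι).symm
      · apply h.hinj
        rw [ι_trip_lam, hρR, hρRp, sub_self]
        exact (map_zero ι).symm
    show trip h z.2 ρ ∈ 𝒱.B1
    rw [h0]
    exact 𝒱.B1.zero_mem

/-- **`M0 / r M0 ↪ H~¹(𝒱)`**, difference form. -/
theorem kum_eq_iff (z z' : ↥M) :
    kum h z = kum h z' ↔ ∃ z0 ∈ M0 G J0, r • z0 = (z : J) - z' := by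
  rw [← sub_eq_zero, ← map_sub, kum_eq_zero_iff]
  rfl

end Kum

section Equivariance

variable (h : KumHyp J0 r ι 𝒱 M)

/-- an endomorphism of `J` commuting with `G` and preserving `J0` preserves `M0`. -/
theorem map_mem_M0 (T : J →+ J) (hTG : ∀ (σ : G) (v : J), T (σ • v) = σ • T v)
    (hT0 : ∀ v ∈ J0, T v ∈ J0) {z : J} (hz : z ∈ M0 G J0) : T z ∈ M0 G J0 :=
  ⟨fun σ => by rw [← hTG, hz.1 σ], hT0 z hz.2⟩

/-- the image of a choice of roots. -/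
def Roots.map (T : J →+ J) (hTG : ∀ (σ : G) (v : J), T (σ • v) = σ • T v)
    (hT0 : ∀ v ∈ J0, T v ∈ J0) {z : J} (ρ : Roots I J0 r z) : Roots I J0 r (T z) where
  R := T ρ.R
  Rp := T ρ.Rp
  hR := by rw [← map_nsmul, ρ.hR]
  hRp := by rw [← map_nsmul, ρ.hRp]
  hRp0 := hT0 _ ρ.hRp0
  hRpI := fun τ hτ => by rw [← hTG, ρ.hRpI τ hτ]

/-- **Hecke equivariance of the Kummer triple map.** -/
theorem kum_equivariant (T : J →+ J) (hTG : ∀ (σ : G) (v : J), T (σ • v) = σ • T v)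
    (hT0 : ∀ v ∈ J0, T v ∈ J0) (hTM : ∀ v ∈ M, T v ∈ M) (φ : 𝒱.Hom 𝒱)
    (hφ : ∀ w : W, ι (φ.f w) = T (ι w)) (z : ↥M) :
    kum h ⟨T z, hTM z z.2⟩ = φ.H1map (kum h z) := by
  obtain ⟨ρ⟩ := nonempty_roots (I := I) h z.2
  rw [kum_eq_mk h z ρ, kum_eq_mk h ⟨T z, hTM z z.2⟩ (ρ.map T hTG hT0),
    Marked.Hom.H1map_mk]
  congr 1
  apply Subtype.ext
  show trip h (hTM z z.2) (ρ.map T hTG hT0) = cochMap D φ.f (trip h z.2 ρ)
  refine Prod.ext (funext fun σ => ?_) (Prod.ext (funext fun τ => ?_) ?_)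
  · apply h.hinj
    show _ = ι (φ.f ((trip h z.2 ρ).1 σ))
    rw [hφ, ι_trip_x, ι_trip_x, map_sub, hTG]
    rfl
  · apply h.hinj
    show _ = ι (φ.f ((trip h z.2 ρ).2.1 τ))
    rw [hφ, ι_trip_y, ι_trip_y, map_sub, hTG]
    rfl
  · apply h.hinj
    show _ = ι (φ.f (trip h z.2 ρ).2.2)
    rw [hφ, ι_trip_lam, ι_trip_lam, map_sub]
    rfl

include h in
theorem nsmul_map_ι (T : J →+ J) (w : W) : r • T (ι w) = 0 := by
  rw [← map_nsmul, h.hkill, map_zero]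

/-- the endomorphism of `W` induced by an endomorphism of `J`. -/
def endW (T : J →+ J) : W →+ W :=
  AddMonoidHom.mk' (fun w => lift h (T (ι w)) (nsmul_map_ι h T w))
    (fun w w' => h.hinj (by
      have e1 := ι_lift h (T (ι (w + w'))) (nsmul_map_ι h T (w + w'))
      have e2 := ι_lift h (T (ι w)) (nsmul_map_ι h T w)
      have e3 := ι_lift h (T (ι w')) (nsmul_map_ι h T w')
      calc ι (lift h (T (ι (w + w'))) (nsmul_map_ι h T (w + w')))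
          = T (ι (w + w')) := e1
        _ = T (ι w) + T (ι w') := by rw [map_add, map_add]
        _ = ι (lift h (T (ι w)) (nsmul_map_ι h T w)) +
              ι (lift h (T (ι w')) (nsmul_map_ι h T w')) := by rw [e2, e3]
        _ = ι (lift h (T (ι w)) (nsmul_map_ι h T w) + lift h (T (ι w')) (nsmul_map_ι h T w')) :=
            (map_add ι _ _).symm))

theorem ι_endW (T : J →+ J) (w : W) : ι (endW h T w) = T (ι w) :=
  ι_lift h (T (ι w)) (nsmul_map_ι h T w)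

/-- the marked endomorphism of `𝒱` induced by an endomorphism `T` of `J` commuting with `G`,
preserving `J0` and the admissible cochains. -/
def endOfHom (T : J →+ J) (hTG : ∀ (σ : G) (v : J), T (σ • v) = σ • T v)
    (hT0 : ∀ v ∈ J0, T v ∈ J0)
    (hTX : ∀ x ∈ 𝒱.X, (fun σ => endW h T (x σ)) ∈ 𝒱.X) : 𝒱.Hom 𝒱 where
  f := endW h T
  map_smul σ w := by
    apply h.hinj
    rw [ι_endW, h.hequiv, h.hequiv, ι_endW, hTG]
  map_Wf w hw := by
    rw [h.hWf] at hw ⊢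
    rw [ι_endW]
    exact ⟨hT0 _ hw.1, fun τ hτ => by rw [← hTG, hw.2 τ hτ]⟩
  map_X := hTX

theorem ι_endOfHom (T : J →+ J) (hTG : ∀ (σ : G) (v : J), T (σ • v) = σ • T v)
    (hT0 : ∀ v ∈ J0, T v ∈ J0)
    (hTX : ∀ x ∈ 𝒱.X, (fun σ => endW h T (x σ)) ∈ 𝒱.X) (w : W) :
    ι ((endOfHom h T hTG hT0 hTX).f w) = T (ι w) := ι_endW h T w

end Equivariance

end

end Fermat.Agent.GZ.Kum.Abs
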