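/-
GATE-Z (S15, Mazur block) / node (KUM), complement (helper79): **the Hecke-module structure on
`H~¹`** and the **HECKE-CORE** of a local condition.  Imports only `GZ/Kum/KumDev` (Mathlib +
`GZ/Dev`).

* `idHom`, `compHom`, `addHom`, `zeroHom`, `negHom` : the (pre-additive) category of marked modules;
  `H1map_id`, `H1map_comp`, `H1map_add`, `H1map_zero`, `H1map_neg`, `H1map_congr`;
* `markedEnd 𝒲 : Subring (AddMonoid.End W)` : the `G`-equivariant endomorphisms of `W` respecting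
  `Wf` and `X`;  `H1End 𝒲 : markedEnd 𝒲 →+* AddMonoid.End 𝒲.H1`, `H1End_mk`;
* `core E XL : AddSubgroup (G → W)` : the cochains `x` with `t ∘ x ∈ XL` for every `t ∈ E`
  (`E` a multiplicatively closed set of endomorphisms of `W` containing `1`): the LARGEST
  `E`-stable subgroup of `XL` (`core_le`, `comp_mem_core`, `le_core`); it contains the coboundaries
  as soon as `XL` does and `E` is `G`-equivariant (`dCob_mem_core`), and it is compatible with
  PREIMAGES (`mem_core_of_comp`) and IMAGES (`comp_mem_core_of_le`) along `E`-equivariant maps —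
  so the flat condition at `r` can be made Hecke-stable FOR FREE: no integrality of the Hecke
  operators on the order is needed, and `H~¹` only gets smaller (upper bounds survive);
* `mem_markedEnd_plain` : in the plain marking `(W, W^I, X0 ⊓ core E XL)` every `t ∈ E` is a marked
  endomorphism (`X0` any `E`-stable subgroup, e.g. "level-constant and unramified outside `S`");
* `heckeH1 : E →+* AddMonoid.End H~¹` for a subring `E` of such endomorphisms.
-/
import Fermat.Agent.GZ.Kum.KumDev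

set_option autoImplicit false
set_option linter.unusedSectionVars false

namespace Fermat.Agent.GZ.Kum.H1Func

open Fermat.Agent.GZ.Dev Fermat.Agent.GZ.Kum.KumDev

noncomputable section

/-! ### the category of marked modules -/

section Cat

variable {G : Type*} [Group G] {D I : Subgroup G}
variable {W : Type*} [AddCommGroup W] [DistribMulAction G W]
variable {W' : Type*} [AddCommGroup W'] [DistribMulAction G W']
variable {W'' : Type*} [AddCommGroup W''] [DistribMulAction G W'']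
variable {𝒲 : Marked D I W} {𝒲' : Marked D I W'} {𝒲'' : Marked D I W''}

theorem markedHom_ext {φ ψ : MarkedHom 𝒲 𝒲'} (h : φ.f = ψ.f) : φ = ψ := by
  cases φ
  cases ψ
  cases h
  rfl

/-- the identity. -/
def idHom (𝒲 : Marked D I W) : MarkedHom 𝒲 𝒲 where
  f := AddMonoidHom.id W
  f_smul := fun _ _ => rfl
  map_Wf := fun _ h => h
  map_X := fun _ h => h

/-- composition. -/
def compHom (ψ : MarkedHom 𝒲' 𝒲'') (φ : MarkedHom 𝒲 𝒲') : MarkedHom 𝒲 𝒲'' where
  f := ψ.f.comp φ.f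
  f_smul := fun σ w => by
    show ψ.f (φ.f (σ • w)) = σ • ψ.f (φ.f w)
    rw [φ.f_smul, ψ.f_smul]
  map_Wf := fun w hw => ψ.map_Wf _ (φ.map_Wf _ hw)
  map_X := fun x hx => ψ.map_X _ (φ.map_X _ hx)

/-- sum. -/
def addHom (φ ψ : MarkedHom 𝒲 𝒲') : MarkedHom 𝒲 𝒲' where
  f := φ.f + ψ.f
  f_smul := fun σ w => by
    show φ.f (σ • w) + ψ.f (σ • w) = σ • (φ.f w + ψ.f w)
    rw [φ.f_smul, ψ.f_smul, smul_add]
  map_Wf := fun w hw => 𝒲'.Wf.add_mem (φ.map_Wf _ hw) (ψ.map_Wf _ hw)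
  map_X := fun x hx => 𝒲'.X.add_mem (φ.map_X x hx) (ψ.map_X x hx)

/-- zero. -/
def zeroHom (𝒲 : Marked D I W) (𝒲' : Marked D I W') : MarkedHom 𝒲 𝒲' where
  f := 0
  f_smul := fun σ _ => (smul_zero σ).symm
  map_Wf := fun _ _ => 𝒲'.Wf.zero_mem
  map_X := fun _ _ => 𝒲'.X.zero_mem

/-- opposite. -/
def negHom (φ : MarkedHom 𝒲 𝒲') : MarkedHom 𝒲 𝒲' where
  f := -φ.f
  f_smul := fun σ w => by
    show -φ.f (σ • w) = σ • (-φ.f w)
    rw [φ.f_smul, smul_neg]
  map_Wf := fun w hw => 𝒲'.Wf.neg_mem (φ.map_Wf _ hw)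
  map_X := fun x hx => 𝒲'.X.neg_mem (φ.map_X x hx)

theorem H1map_congr {φ ψ : MarkedHom 𝒲 𝒲'} (h : φ.f = ψ.f) : H1map φ = H1map ψ := by
  rw [markedHom_ext h]

theorem H1map_id (𝒲 : Marked D I W) : H1map (idHom 𝒲) = AddMonoidHom.id 𝒲.H1 := by
  refine AddMonoidHom.ext fun x => ?_
  obtain ⟨c, rfl⟩ := H1mk_surjective 𝒲 x
  rw [H1map_mk]
  rfl

theorem H1map_comp (ψ : MarkedHom 𝒲' 𝒲'') (φ : MarkedHom 𝒲 𝒲') :
    H1map (compHom ψ φ) = (H1map ψ).comp (H1map φ) := by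
  refine AddMonoidHom.ext fun x => ?_
  obtain ⟨c, rfl⟩ := H1mk_surjective 𝒲 x
  rw [H1map_mk, AddMonoidHom.comp_apply, H1map_mk, H1map_mk]
  rfl

theorem H1map_add (φ ψ : MarkedHom 𝒲 𝒲') : H1map (addHom φ ψ) = H1map φ + H1map ψ := by
  refine AddMonoidHom.ext fun x => ?_
  obtain ⟨c, rfl⟩ := H1mk_surjective 𝒲 x
  rw [AddMonoidHom.add_apply, H1map_mk, H1map_mk, H1map_mk, ← map_add]
  rfl

theorem H1map_zero (𝒲 : Marked D I W) (𝒲' : Marked D I W') : H1map (zeroHom 𝒲 𝒲') = 0 := by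
  refine AddMonoidHom.ext fun x => ?_
  obtain ⟨c, rfl⟩ := H1mk_surjective 𝒲 x
  rw [H1map_mk, AddMonoidHom.zero_apply, ← map_zero (H1mk 𝒲')]
  rfl

theorem H1map_neg (φ : MarkedHom 𝒲 𝒲') : H1map (negHom φ) = -H1map φ := by
  refine AddMonoidHom.ext fun x => ?_
  obtain ⟨c, rfl⟩ := H1mk_surjective 𝒲 x
  rw [AddMonoidHom.neg_apply, H1map_mk, H1map_mk, ← map_neg]
  rfl

end Cat

/-! ### the ring of marked endomorphisms and its action on `H~¹` -/

section End

variable {G : Type*} [Group G] {D I : Subgroup G}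
variable {W : Type*} [AddCommGroup W] [DistribMulAction G W]

/-- the `G`-equivariant endomorphisms of `W` respecting `Wf` and `X`. -/
def markedEnd (𝒲 : Marked D I W) : Subring (AddMonoid.End W) where
  carrier := {f | (∀ (σ : G) (w : W), f (σ • w) = σ • f w) ∧ (∀ w ∈ 𝒲.Wf, f w ∈ 𝒲.Wf) ∧
    ∀ x ∈ 𝒲.X, (fun σ => f (x σ)) ∈ 𝒲.X}
  mul_mem' := by
    rintro f g ⟨hf1, hf2, hf3⟩ ⟨hg1, hg2, hg3⟩
    refine ⟨fun σ w => ?_, fun w hw => hf2 _ (hg2 w hw), fun x hx => hf3 _ (hg3 x hx)⟩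
    show f (g (σ • w)) = σ • f (g w)
    rw [hg1, hf1]
  one_mem' := ⟨fun _ _ => rfl, fun _ h => h, fun _ h => h⟩
  add_mem' := by
    rintro f g ⟨hf1, hf2, hf3⟩ ⟨hg1, hg2, hg3⟩
    refine ⟨fun σ w => ?_, fun w hw => 𝒲.Wf.add_mem (hf2 w hw) (hg2 w hw),
      fun x hx => 𝒲.X.add_mem (hf3 x hx) (hg3 x hx)⟩
    show f (σ • w) + g (σ • w) = σ • (f w + g w)
    rw [hf1, hg1, smul_add]
  zero_mem' := ⟨fun σ _ => (smul_zero σ).symm, fun _ _ => 𝒲.Wf.zero_mem, fun _ _ => 𝒲.X.zero_mem⟩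
  neg_mem' := by
    rintro f ⟨hf1, hf2, hf3⟩
    refine ⟨fun σ w => ?_, fun w hw => 𝒲.Wf.neg_mem (hf2 w hw), fun x hx => 𝒲.X.neg_mem (hf3 x hx)⟩
    show -f (σ • w) = σ • (-f w)
    rw [hf1, smul_neg]

theorem mem_markedEnd {𝒲 : Marked D I W} {f : AddMonoid.End W} :
    f ∈ markedEnd 𝒲 ↔ (∀ (σ : G) (w : W), f (σ • w) = σ • f w) ∧ (∀ w ∈ 𝒲.Wf, f w ∈ 𝒲.Wf) ∧
      ∀ x ∈ 𝒲.X, (fun σ => f (x σ)) ∈ 𝒲.X := Iff.rfl

/-- a marked endomorphism as a morphism of marked modules. -/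
def toHom {𝒲 : Marked D I W} (f : markedEnd 𝒲) : MarkedHom 𝒲 𝒲 where
  f := (f : AddMonoid.End W)
  f_smul := f.2.1
  map_Wf := f.2.2.1
  map_X := f.2.2.2

@[simp] theorem toHom_f {𝒲 : Marked D I W} (f : markedEnd 𝒲) (w : W) :
    (toHom f).f w = (f : AddMonoid.End W) w := rfl

/-- **the action of the marked endomorphisms on `H~¹`.** -/
def H1End (𝒲 : Marked D I W) : markedEnd 𝒲 →+* AddMonoid.End 𝒲.H1 where
  toFun f := H1map (toHom f)
  map_one' := by
    rw [show toHom (1 : markedEnd 𝒲) = idHom 𝒲 from markedHom_ext rfl, H1map_id]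
    rfl
  map_mul' f g := by
    rw [show toHom (f * g) = compHom (toHom f) (toHom g) from markedHom_ext rfl, H1map_comp]
    rfl
  map_zero' := by
    rw [show toHom (0 : markedEnd 𝒲) = zeroHom 𝒲 𝒲 from markedHom_ext rfl, H1map_zero]
    rfl
  map_add' f g := by
    rw [show toHom (f + g) = addHom (toHom f) (toHom g) from markedHom_ext rfl, H1map_add]
    rfl

theorem H1End_apply (𝒲 : Marked D I W) (f : markedEnd 𝒲) (x : 𝒲.H1) :
    H1End 𝒲 f x = H1map (toHom f) x := rfl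

theorem H1End_mk (𝒲 : Marked D I W) (f : markedEnd 𝒲) (c : 𝒲.Z1) :
    H1End 𝒲 f (H1mk 𝒲 c) = H1mk 𝒲 ((toHom f).Z1map c) := rfl

end End

/-! ### the core of a local condition -/

section Core

variable {G : Type*} [Group G]
variable {W : Type*} [AddCommGroup W] [DistribMulAction G W]
variable {W' : Type*} [AddCommGroup W'] [DistribMulAction G W']

/-- the cochains all of whose `E`-translates are in `XL`. -/
def core (E : Set (AddMonoid.End W)) (XL : AddSubgroup (G → W)) : AddSubgroup (G → W) where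
  carrier := {x | ∀ t ∈ E, (fun σ => t (x σ)) ∈ XL}
  zero_mem' := fun t _ => by
    have : (fun σ : G => t ((0 : G → W) σ)) = 0 := funext fun σ => map_zero t
    rw [this]
    exact XL.zero_mem
  add_mem' := fun {x y} hx hy t ht => by
    have : (fun σ : G => t ((x + y) σ)) = (fun σ => t (x σ)) + fun σ => t (y σ) :=
      funext fun σ => map_add t _ _
    rw [this]
    exact XL.add_mem (hx t ht) (hy t ht)
  neg_mem' := fun {x} hx t ht => by
    have : (fun σ : G => t ((-x) σ)) = -fun σ => t (x σ) := funext fun σ => map_neg t _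
    rw [this]
    exact XL.neg_mem (hx t ht)

theorem mem_core {E : Set (AddMonoid.End W)} {XL : AddSubgroup (G → W)} {x : G → W} :
    x ∈ core E XL ↔ ∀ t ∈ E, (fun σ => t (x σ)) ∈ XL := Iff.rfl

theorem core_le {E : Set (AddMonoid.End W)} (h1 : (1 : AddMonoid.End W) ∈ E)
    (XL : AddSubgroup (G → W)) : core E XL ≤ XL := fun _ hx => hx 1 h1

theorem comp_mem_core {E : Set (AddMonoid.End W)}
    (hmul : ∀ t ∈ E, ∀ t' ∈ E, t' * t ∈ E) {XL : AddSubgroup (G → W)} {t : AddMonoid.End W}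
    (ht : t ∈ E) {x : G → W} (hx : x ∈ core E XL) : (fun σ => t (x σ)) ∈ core E XL :=
  fun t' ht' => hx (t' * t) (hmul t ht t' ht')

/-- `core E XL` is the largest `E`-stable subgroup of `XL`. -/
theorem le_core {E : Set (AddMonoid.End W)} {XL Y : AddSubgroup (G → W)} (hY : Y ≤ XL)
    (hYE : ∀ t ∈ E, ∀ x ∈ Y, (fun σ => t (x σ)) ∈ Y) : Y ≤ core E XL :=
  fun x hx t ht => hY (hYE t ht x hx)

theorem core_mono {E : Set (AddMonoid.End W)} {XL XL' : AddSubgroup (G → W)} (h : XL ≤ XL') :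
    core E XL ≤ core E XL' := fun _ hx t ht => h (hx t ht)

theorem dCob_mem_core {E : Set (AddMonoid.End W)}
    (hE : ∀ t ∈ E, ∀ (σ : G) (w : W), t (σ • w) = σ • t w) {XL : AddSubgroup (G → W)}
    (hXL : ∀ w : W, dCob G w ∈ XL) (w : W) : dCob G w ∈ core E XL := fun t ht => by
  have : (fun σ : G => t (dCob G w σ)) = dCob G (t w) := funext fun σ => by
    rw [dCob_apply, dCob_apply, map_sub, hE t ht]
  rw [this]
  exact hXL _

/-- PREIMAGE: if `XL'` is the preimage of `XL` under `j ∘ -` and `j` intertwines `E'` with `E`,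
then `core E' XL'` is the preimage of `core E XL` (one direction needs `E` covered by `E'`). -/
theorem mem_core_of_comp {E : Set (AddMonoid.End W)} {E' : Set (AddMonoid.End W')}
    {XL : AddSubgroup (G → W)} {XL' : AddSubgroup (G → W')} (j : W' →+ W)
    (hXL' : ∀ x' : G → W', (fun σ => j (x' σ)) ∈ XL → x' ∈ XL')
    (hj : ∀ t' ∈ E', ∃ t ∈ E, ∀ w' : W', j (t' w') = t (j w')) {x' : G → W'}
    (hx : (fun σ => j (x' σ)) ∈ core E XL) : x' ∈ core E' XL' := fun t' ht' => by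
  obtain ⟨t, ht, e⟩ := hj t' ht'
  apply hXL'
  have : (fun σ => j (t' (x' σ))) = fun σ => t (j (x' σ)) := funext fun σ => e _
  rw [this]
  exact hx t ht

/-- IMAGE: if `π ∘ -` maps `XL` into `XL''` and `π` intertwines `E` with `E''`, then it maps
`core E XL` into `core E'' XL''`. -/
theorem comp_mem_core_of_le {E : Set (AddMonoid.End W)} {E'' : Set (AddMonoid.End W')}
    {XL : AddSubgroup (G → W)} {XL'' : AddSubgroup (G → W')} (π : W →+ W')
    (hXL'' : ∀ x ∈ XL, (fun σ => π (x σ)) ∈ XL'')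
    (hπ : ∀ t'' ∈ E'', ∃ t ∈ E, ∀ w : W, t'' (π w) = π (t w)) {x : G → W}
    (hx : x ∈ core E XL) : (fun σ => π (x σ)) ∈ core E'' XL'' := fun t'' ht'' => by
  obtain ⟨t, ht, e⟩ := hπ t'' ht''
  have : (fun σ => t'' (π (x σ))) = fun σ => π (t (x σ)) := funext fun σ => e _
  rw [this]
  exact hXL'' _ (hx t ht)

end Core

/-! ### the plain marking with a Hecke-stable condition -/

section Plain

variable {G : Type*} [Group G] {D I : Subgroup G}
variable {W : Type*} [AddCommGroup W] [DistribMulAction G W]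

/-- in the plain marking `(W, W^I, X0 ⊓ core E XL)` every `t ∈ E` is a marked endomorphism. -/
theorem mem_markedEnd_plain (hnorm : ∀ τ ∈ D, ∀ τ' ∈ I, τ⁻¹ * τ' * τ ∈ I)
    {E : Set (AddMonoid.End W)} (hmul : ∀ t ∈ E, ∀ t' ∈ E, t' * t ∈ E)
    (hE : ∀ t ∈ E, ∀ (σ : G) (w : W), t (σ • w) = σ • t w)
    (X0 XL : AddSubgroup (G → W)) (hX0 : ∀ t ∈ E, ∀ x ∈ X0, (fun σ => t (x σ)) ∈ X0)
    (hX : ∀ w : W, dCob G w ∈ X0 ⊓ core E XL) {t : AddMonoid.End W} (ht : t ∈ E) :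
    t ∈ markedEnd (markedPlain D I hnorm (X0 ⊓ core E XL) hX) := by
  refine ⟨hE t ht, fun w hw τ hτ => ?_, fun x hx => ⟨hX0 t ht x hx.1, comp_mem_core hmul ht hx.2⟩⟩
  rw [← hE t ht, hw τ hτ]

/-- the action of a subring `E` of equivariant endomorphisms on `H~¹(W, W^I, X0 ⊓ core E XL)`. -/
def heckeH1 (hnorm : ∀ τ ∈ D, ∀ τ' ∈ I, τ⁻¹ * τ' * τ ∈ I) (E : Subring (AddMonoid.End W))
    (hE : ∀ t ∈ E, ∀ (σ : G) (w : W), t (σ • w) = σ • t w)
    (X0 XL : AddSubgroup (G → W))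
    (hX0 : ∀ t ∈ E, ∀ x ∈ X0, (fun σ => t (x σ)) ∈ X0)
    (hX : ∀ w : W, dCob G w ∈ X0 ⊓ core (E : Set (AddMonoid.End W)) XL) :
    E →+* AddMonoid.End (markedPlain D I hnorm (X0 ⊓ core (E : Set (AddMonoid.End W)) XL) hX).H1 :=
  (H1End _).comp (Subring.inclusion (fun _ ht =>
    mem_markedEnd_plain hnorm (fun _ ht _ ht' => E.mul_mem ht' ht) hE X0 XL hX0 hX ht))

theorem heckeH1_mk (hnorm : ∀ τ ∈ D, ∀ τ' ∈ I, τ⁻¹ * τ' * τ ∈ I) (E : Subring (AddMonoid.End W))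
    (hE : ∀ t ∈ E, ∀ (σ : G) (w : W), t (σ • w) = σ • t w)
    (X0 XL : AddSubgroup (G → W))
    (hX0 : ∀ t ∈ E, ∀ x ∈ X0, (fun σ => t (x σ)) ∈ X0)
    (hX : ∀ w : W, dCob G w ∈ X0 ⊓ core (E : Set (AddMonoid.End W)) XL) (t : E)
    (c : (markedPlain D I hnorm (X0 ⊓ core (E : Set (AddMonoid.End W)) XL) hX).Z1) :
    ((heckeH1 hnorm E hE X0 XL hX0 hX t) (H1mk _ c) : _) =
      H1mk _ ((toHom ⟨(t : AddMonoid.End W), mem_markedEnd_plain hnorm
        (fun _ ht _ ht' => E.mul_mem ht' ht) hE X0 XL hX0 hX t.2⟩).Z1map c) := rfl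

end Plain

end

end Fermat.Agent.GZ.Kum.H1Func
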