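/-
GATE-Z (S15, Mazur block) / node (KUM), UNRAMIFIEDNESS of Kummer cochains at level `p` at EVERY
prime `ℓ' ≠ p` prime to the exponent — including `ℓ' = 2, 3` (helper79).

`smul_eq_of_sub_torsion` : `p ≥ 5` prime, `ℓ' ≠ p` prime, `A ∣ ℓ'`, `σ ∈ I_A`, `ℓ' ∤ m`,
`m • (σ • y - y) = 0`  ⟹  `σ • y = y`   for `y : JZero p`.

* `ℓ' ≥ 5` : `GR/W/TorsRep.smul_sub_eq_zero_of_mem_inertia` at level `p` (S18 + level package).
* `ℓ' = 2` : the same at the AUXILIARY level `3 p` (where the level package exists: `3 ∣ 3 p`)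
  applied to `pullBar y`, then `ker pullBar` is killed by `[F_{3p} : F_p] = 4` (`pullPackage`,
  `GZ/Deg/RelDeg`), and `gcd (4, m) = 1`.
* `ℓ' = 3` : level `2 p`, degree `3`.

Consequences: `kummer_unramified` (`n • R` rational ⟹ inertia at `ℓ' ∤ n p` fixes `R`),
`torsion_unramified` (inertia at `ℓ' ∤ n p` fixes `J₀(p)[n]`), `isOpen_stabilizer` (level).
-/
import Fermat.Agent.GR.W.TorsRep
import Fermat.Agent.GR.W.KummerUnr
import Fermat.Agent.GJ.S37.PullPackageInst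
import Fermat.Agent.GZ.Deg.RelDeg

set_option autoImplicit false

noncomputable section

open AlgebraicCurve ModularCurve IntermediateField

namespace Fermat.Agent.GZ.Kum.Unr

open Fermat.Agent.GJ.S37HeckePullback

local notation "Qb" => AlgebraicClosure ℚ
local notation "GQ" => (AlgebraicClosure ℚ ≃ₐ[ℚ] AlgebraicClosure ℚ)

/-- an element killed by two coprime integers is zero. -/
theorem eq_zero_of_coprime_nsmul {J : Type*} [AddCommGroup J] {a b : ℕ} (hab : Nat.Coprime a b)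
    {z : J} (ha : a • z = 0) (hb : b • z = 0) : z = 0 := by
  have hord : addOrderOf z ∣ Nat.gcd a b :=
    Nat.dvd_gcd (addOrderOf_dvd_of_nsmul_eq_zero ha) (addOrderOf_dvd_of_nsmul_eq_zero hb)
  rw [hab] at hord
  exact AddMonoid.addOrderOf_eq_one_iff.mp (Nat.dvd_one.mp hord)

/-- the auxiliary-level step: `q ∈ {2, 3}`, `d` the other one; at level `d * p` the level package
exists at `q`. -/
theorem smul_eq_of_sub_torsion_aux {p : ℕ} [NeZero p] {q d : ℕ} [NeZero (d * p)] (hq : q.Prime)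
    (hqdp : ¬ q ∣ d * p) (h2 : q = 2 → 3 ∣ d * p) (h3 : q = 3 → 2 ∣ d * p)
    (A : ValuationSubring Qb) (hA : A.LiesOverPrime q) {σ : GQ}
    (hσ : σ ∈ A.inertiaSubgroupIn ℚ) (m : ℕ) (hm : ¬ q ∣ m)
    (hdeg : Nat.Coprime (relfinrank (modularFunctionFieldBar p) (modularFunctionFieldBar (d * p))) m)
    (y : JZero p) (hy : m • (σ • y - y) = 0) : σ • y = y := by
  have hpull := Fermat.Agent.GJ.S37PullPackageInst.pullPackage p (d * p) (Dvd.intro_left d rfl)
  set P := pullBar (N := p) (N' := d * p) (Dvd.intro_left d rfl) with hP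
  -- inertia fixes the pull-back of `y`
  have h1 : σ • P y = P y := by
    refine Fermat.Agent.GR.W.TorsRep.smul_sub_eq_zero_of_mem_inertia (d * p) hq hqdp h2 h3 A hA hσ m
      hm (P y) ?_
    rw [← hpull.1 σ y, ← map_sub, ← map_nsmul, hy, map_zero]
  -- so `σ • y - y` is in the kernel of the pull-back
  have h2' : P (σ • y - y) = 0 := by
    rw [map_sub, hpull.1 σ y, h1, sub_self]
  have h3' := hpull.2 _ h2'
  exact sub_eq_zero.1 (eq_zero_of_coprime_nsmul hdeg h3' hy)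

/-- **inertia at `ℓ' ≠ p` kills nothing of exponent prime to `ℓ'`** (level `p ≥ 5` prime, all
`ℓ'` including `2` and `3`). -/
theorem smul_eq_of_sub_torsion {p : ℕ} (hp : p.Prime) (hp2 : p ≠ 2) (hp3 : p ≠ 3) [NeZero p]
    {ℓ' : ℕ} (hℓ' : ℓ'.Prime) (hℓ'p : ℓ' ≠ p) (A : ValuationSubring Qb)
    (hA : A.LiesOverPrime ℓ') {σ : GQ} (hσ : σ ∈ A.inertiaSubgroupIn ℚ) (m : ℕ)
    (hm : ¬ ℓ' ∣ m) (y : JZero p) (hy : m • (σ • y - y) = 0) : σ • y = y := by
  have hℓ'N : ¬ ℓ' ∣ p := fun h => hℓ'p ((Nat.prime_dvd_prime_iff_eq hℓ' hp).1 h)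
  have h3p : ¬ 3 ∣ p := fun h => hp3 ((Nat.prime_dvd_prime_iff_eq Nat.prime_three hp).1 h).symm
  have h2p : ¬ 2 ∣ p := fun h => hp2 ((Nat.prime_dvd_prime_iff_eq Nat.prime_two hp).1 h).symm
  by_cases h2 : ℓ' = 2
  · subst h2
    have : NeZero (3 * p) := ⟨Nat.mul_ne_zero (by norm_num) hp.ne_zero⟩
    refine smul_eq_of_sub_torsion_aux (d := 3) Nat.prime_two ?_ (fun _ => Dvd.intro _ rfl)
      (fun h => absurd h (by decide)) A hA hσ m hm ?_ y hy
    · intro h
      rcases (Nat.Prime.dvd_mul Nat.prime_two).1 h with h | h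
      · exact absurd h (by decide)
      · exact h2p h
    · rw [Fermat.Agent.GZ.Deg.relfinrank_three_mul p h3p]
      have h2m : Nat.Coprime 2 m := (Nat.Prime.coprime_iff_not_dvd Nat.prime_two).2 hm
      exact (Nat.Coprime.pow_left 2 h2m : Nat.Coprime (2 ^ 2) m)
  by_cases h3 : ℓ' = 3
  · subst h3
    have : NeZero (2 * p) := ⟨Nat.mul_ne_zero (by norm_num) hp.ne_zero⟩
    refine smul_eq_of_sub_torsion_aux (d := 2) Nat.prime_three ?_ (fun h => absurd h (by decide))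
      (fun _ => Dvd.intro _ rfl) A hA hσ m hm ?_ y hy
    · intro h
      rcases (Nat.Prime.dvd_mul Nat.prime_three).1 h with h | h
      · exact absurd h (by decide)
      · exact h3p h
    · rw [Fermat.Agent.GZ.Deg.relfinrank_two_mul p h2p]
      exact (Nat.Prime.coprime_iff_not_dvd Nat.prime_three).2 hm
  · exact Fermat.Agent.GR.W.TorsRep.smul_sub_eq_zero_of_mem_inertia p hℓ' hℓ'N
      (fun h => absurd h h2) (fun h => absurd h h3) A hA hσ m hm y hy

/-- **Kummer cochains are unramified outside the exponent and the level**: if `n • R` is fixed by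
`σ ∈ I_A`, `A ∣ ℓ'`, `ℓ' ∤ n p`, then `σ • R = R`. -/
theorem kummer_unramified {p : ℕ} (hp : p.Prime) (hp2 : p ≠ 2) (hp3 : p ≠ 3) [NeZero p]
    {ℓ' : ℕ} (hℓ' : ℓ'.Prime) (hℓ'p : ℓ' ≠ p) (A : ValuationSubring Qb)
    (hA : A.LiesOverPrime ℓ') {σ : GQ} (hσ : σ ∈ A.inertiaSubgroupIn ℚ) (n : ℕ)
    (hn : ¬ ℓ' ∣ n) (R : JZero p) (hR : σ • (n • R) = n • R) : σ • R = R := by
  refine smul_eq_of_sub_torsion hp hp2 hp3 hℓ' hℓ'p A hA hσ n hn R ?_
  have h1 : σ • (n • R) = n • (σ • R) := map_nsmul (DistribSMul.toAddMonoidHom (JZero p) σ) n R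
  rw [nsmul_sub, ← h1, hR, sub_self]

/-- **`J₀(p)[n]` is unramified at `ℓ' ∤ n p`** (all `ℓ'`, including `2` and `3`). -/
theorem torsion_unramified {p : ℕ} (hp : p.Prime) (hp2 : p ≠ 2) (hp3 : p ≠ 3) [NeZero p]
    {ℓ' : ℕ} (hℓ' : ℓ'.Prime) (hℓ'p : ℓ' ≠ p) (A : ValuationSubring Qb)
    (hA : A.LiesOverPrime ℓ') {σ : GQ} (hσ : σ ∈ A.inertiaSubgroupIn ℚ) (n : ℕ)
    (hn : ¬ ℓ' ∣ n) (x : JZero p) (hx : n • x = 0) : σ • x = x := by
  refine kummer_unramified hp hp2 hp3 hℓ' hℓ'p A hA hσ n hn x ?_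
  rw [hx]
  exact smul_zero (A := JZero p) σ

/-- the stabiliser of any class is open (finite level). -/
theorem isOpen_stabilizer (p : ℕ) [NeZero p] (y : JZero p) :
    IsOpen (MulAction.stabilizer GQ y : Set GQ) :=
  Fermat.Agent.GR.W.KummerUnr.isOpen_stabilizer_jzero p y

end Fermat.Agent.GZ.Kum.Unr
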