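/-
GATE-Z (S15, Mazur block) / node (KUM), the PLUG on `J₀(p)` (helper79): the plain (all-`k`) Kummer
map of `GZ/Kum/KumDev` for `J := JZero p`, `G := G_ℚ`, `A ∣ p`, `D := D_A`, `I := I_A`,
`n` any exponent (`n := r ^ k`), `W := J[n]` (tautological model `GZ/Kum/TorsModel`).

* `Xur p n S` : the cochains `x : G_ℚ → J[n]` which are LEVEL-CONSTANT (`∃ U` open subgroup,
  `x (g s) = x g` for `s ∈ U`) and UNRAMIFIED at every prime `ℓ' ∉ S` (`x σ = 0` for `σ ∈ I_{A'}`,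
  `A' ∣ ℓ'`), `S` any set of primes;
* `dCob_mem_Xur`     : coboundaries are in `Xur p n S` when `S ∋ p` and the primes dividing `n`
  (binder-free: `Unr.torsion_unramified`, including `ℓ' = 2, 3`);
* `kummer_mem_Xur`   : the Kummer cochains `σ ↦ σ R - R` with `n • R` rational are in `Xur p n S`
  (same `S`; `Unr.kummer_unramified` + finite level);
* `conj_mem_inertia` : `I_A` is normal in `D_A`;
* `marked p n A S XL hXL : Dev.Marked D_A I_A J[n]` with `Wf = J[n]^{I_A}`, `X = Xur p n S ⊓ XL`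
  (`XL` = the abstract local condition at the primes of `n`: "flat at `r`", owner LOC-r);
* `kumHyp` : `KumDev.KumHyp ⊤ n (torsι _ n) (marked …) M` from the binders
  (LOCP*) `hdiv : ∀ z ∈ M, ∃ R, n • R = z ∧ ∀ τ ∈ I_A, τ • R = R` and
  (FL) `hFL : the Kummer cochains of M are in XL`;
* `kumJ : M →+ (marked …).H1`, `kumJ_eq_zero_iff : kumJ z = 0 ↔ ∃ z0, (∀ σ, σ • z0 = z0) ∧ n • z0 = z`.
-/
import Fermat.Agent.GZ.Kum.KumDev
import Fermat.Agent.GZ.Kum.TorsModel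
import Fermat.Agent.GZ.Kum.Unr

set_option autoImplicit false
set_option linter.unusedSectionVars false

noncomputable section

open AlgebraicCurve ModularCurve

namespace Fermat.Agent.GZ.Kum.Plug

open Fermat.Agent.GZ.Dev Fermat.Agent.GZ.Kum.KumDev Fermat.Agent.GZ.Kum.TorsModel
  Fermat.Agent.GZ.Kum.Unr

local notation "Qb" => AlgebraicClosure ℚ
local notation "GQ" => (AlgebraicClosure ℚ ≃ₐ[ℚ] AlgebraicClosure ℚ)

/-! ### normality of inertia in the decomposition group -/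

/-- the inertia group is normalised by the decomposition group. -/
theorem conj_mem_inertia (A : ValuationSubring Qb) {τ τ' : GQ}
    (hτ : τ ∈ A.decompositionSubgroup ℚ) (hτ' : τ' ∈ A.inertiaSubgroupIn ℚ) :
    τ⁻¹ * τ' * τ ∈ A.inertiaSubgroupIn ℚ := by
  obtain ⟨t, ht, rfl⟩ := hτ'
  have hn : (A.inertiaSubgroup ℚ).Normal := by
    unfold ValuationSubring.inertiaSubgroup
    infer_instance
  have h := hn.conj_mem t ht (⟨τ, hτ⟩ : A.decompositionSubgroup ℚ)⁻¹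
  refine ⟨(⟨τ, hτ⟩ : A.decompositionSubgroup ℚ)⁻¹ * t * ((⟨τ, hτ⟩ : A.decompositionSubgroup ℚ)⁻¹)⁻¹,
    h, ?_⟩
  simp

/-! ### the admissible cochains -/

variable (p : ℕ) [NeZero p] (n : ℕ)

/-- the `n`-torsion of `J₀(p)` with its Galois action. -/
abbrev Wn : Type := ↥(torsSub (JZero p) n)

/-- level-constant cochains unramified outside `S`. -/
def Xur (S : Set ℕ) : AddSubgroup (GQ → Wn p n) where
  carrier := {x | (∃ U : Subgroup GQ, IsOpen (U : Set GQ) ∧ ∀ g : GQ, ∀ s ∈ U, x (g * s) = x g) ∧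
    ∀ ℓ' : ℕ, ℓ'.Prime → ℓ' ∉ S → ∀ A' : ValuationSubring Qb, A'.LiesOverPrime ℓ' →
      ∀ σ ∈ A'.inertiaSubgroupIn ℚ, x σ = 0}
  zero_mem' := ⟨⟨⊤, isOpen_univ, fun _ _ _ => rfl⟩, fun _ _ _ _ _ _ _ => rfl⟩
  add_mem' := by
    rintro x y ⟨⟨U, hU, hxU⟩, hx⟩ ⟨⟨U', hU', hyU'⟩, hy⟩
    refine ⟨⟨U ⊓ U', ?_, fun g s hs => ?_⟩, fun ℓ' hℓ' hS A' hA' σ hσ => ?_⟩
    · rw [Subgroup.coe_inf]
      exact hU.inter hU'
    · show x (g * s) + y (g * s) = x g + y g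
      rw [hxU g s hs.1, hyU' g s hs.2]
    · show x σ + y σ = 0
      rw [hx ℓ' hℓ' hS A' hA' σ hσ, hy ℓ' hℓ' hS A' hA' σ hσ, add_zero]
  neg_mem' := by
    rintro x ⟨⟨U, hU, hxU⟩, hx⟩
    refine ⟨⟨U, hU, fun g s hs => ?_⟩, fun ℓ' hℓ' hS A' hA' σ hσ => ?_⟩
    · show -x (g * s) = -x g
      rw [hxU g s hs]
    · show -x σ = 0
      rw [hx ℓ' hℓ' hS A' hA' σ hσ, neg_zero]

variable {p n}

theorem mem_Xur {S : Set ℕ} {x : GQ → Wn p n} :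
    x ∈ Xur p n S ↔
      (∃ U : Subgroup GQ, IsOpen (U : Set GQ) ∧ ∀ g : GQ, ∀ s ∈ U, x (g * s) = x g) ∧
      ∀ ℓ' : ℕ, ℓ'.Prime → ℓ' ∉ S → ∀ A' : ValuationSubring Qb, A'.LiesOverPrime ℓ' →
        ∀ σ ∈ A'.inertiaSubgroupIn ℚ, x σ = 0 := Iff.rfl

/-- a cochain computing `σ ↦ σ • R - R` with `n • R` rational is level-constant and unramified
outside `S ∋ p` and the primes dividing `n`. -/
theorem kummer_mem_Xur (hp : p.Prime) (hp2 : p ≠ 2) (hp3 : p ≠ 3) {S : Set ℕ} (hpS : p ∈ S)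
    (hnS : ∀ ℓ' : ℕ, ℓ'.Prime → ℓ' ∣ n → ℓ' ∈ S) (R : JZero p)
    (hR : ∀ σ : GQ, σ • (n • R) = n • R) (x : GQ → Wn p n)
    (hx : ∀ σ, torsι (JZero p) n (x σ) = σ • R - R) : x ∈ Xur p n S := by
  refine ⟨⟨MulAction.stabilizer GQ R, isOpen_stabilizer p R, fun g s hs => ?_⟩,
    fun ℓ' hℓ' hS A' hA' σ hσ => ?_⟩
  · apply torsι_injective
    rw [hx, hx, mul_smul, MulAction.mem_stabilizer_iff.1 hs]
  · apply torsι_injective
    have hℓ'p : ℓ' ≠ p := fun h => hS (h ▸ hpS)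
    have hℓ'n : ¬ ℓ' ∣ n := fun h => hS (hnS ℓ' hℓ' h)
    rw [hx, kummer_unramified hp hp2 hp3 hℓ' hℓ'p A' hA' hσ n hℓ'n R (hR σ), sub_self]
    exact (map_zero _).symm

/-- coboundaries are level-constant and unramified outside `S`. -/
theorem dCob_mem_Xur (hp : p.Prime) (hp2 : p ≠ 2) (hp3 : p ≠ 3) {S : Set ℕ} (hpS : p ∈ S)
    (hnS : ∀ ℓ' : ℕ, ℓ'.Prime → ℓ' ∣ n → ℓ' ∈ S) (w : Wn p n) : dCob GQ w ∈ Xur p n S := by
  refine kummer_mem_Xur hp hp2 hp3 hpS hnS (w : JZero p) (fun σ => ?_) _ (fun σ => rfl)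
  rw [mem_torsSub.1 w.2]
  exact smul_zero (A := JZero p) σ

/-! ### the marking and the Kummer map -/

variable (p n)

/-- the marked module `(J₀(p)[n], J₀(p)[n]^{I_A}, Xur ⊓ XL)`. -/
def marked (A : ValuationSubring Qb) (S : Set ℕ) (XL : AddSubgroup (GQ → Wn p n))
    (hX : ∀ w : Wn p n, dCob GQ w ∈ Xur p n S ⊓ XL) :
    Marked (A.decompositionSubgroup ℚ) (A.inertiaSubgroupIn ℚ) (Wn p n) :=
  markedPlain (A.decompositionSubgroup ℚ) (A.inertiaSubgroupIn ℚ)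
    (fun _ hτ _ hτ' => conj_mem_inertia A hτ hτ') (Xur p n S ⊓ XL) hX

variable {p n}

/-- **the hypotheses of the Kummer map at level `p`**: binders (LOCP*) `hdiv` and (FL) `hFL`. -/
theorem kumHyp (hp : p.Prime) (hp2 : p ≠ 2) (hp3 : p ≠ 3) (A : ValuationSubring Qb)
    {S : Set ℕ} (hpS : p ∈ S) (hnS : ∀ ℓ' : ℕ, ℓ'.Prime → ℓ' ∣ n → ℓ' ∈ S)
    (XL : AddSubgroup (GQ → Wn p n))
    (hX : ∀ w : Wn p n, dCob GQ w ∈ Xur p n S ⊓ XL)
    (M : AddSubgroup (JZero p)) (hM : ∀ z ∈ M, ∀ σ : GQ, σ • z = z)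
    (hdiv : ∀ z ∈ M, ∃ R : JZero p, n • R = z ∧ ∀ τ ∈ A.inertiaSubgroupIn ℚ, τ • R = R)
    (hFL : ∀ R : JZero p, n • R ∈ M → ∀ x : GQ → Wn p n,
      (∀ σ, torsι (JZero p) n (x σ) = σ • R - R) → x ∈ XL) :
    KumHyp (⊤ : AddSubgroup (JZero p)) n (torsι (JZero p) n) (marked p n A S XL hX) M :=
  kumHyp_plain (fun _ hτ _ hτ' => conj_mem_inertia A hτ hτ') (Xur p n S ⊓ XL) hX n
    (torsι (JZero p) n) M torsι_injective nsmul_torsι exists_torsι_eq torsι_smul hM hdiv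
    (fun R hR x hx => ⟨kummer_mem_Xur hp hp2 hp3 hpS hnS R (fun σ => hM _ hR σ) x hx,
      hFL R hR x hx⟩)

section Kum

variable {A : ValuationSubring Qb} {S : Set ℕ} {XL : AddSubgroup (GQ → Wn p n)}
  {hX : ∀ w : Wn p n, dCob GQ w ∈ Xur p n S ⊓ XL} {M : AddSubgroup (JZero p)}
  (h : KumHyp (⊤ : AddSubgroup (JZero p)) n (torsι (JZero p) n) (marked p n A S XL hX) M)

/-- **the Kummer map of `J₀(p)`** into `H~¹(J[n], J[n]^{I_A}, Xur ⊓ XL)`. -/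
def kumJ : ↥M →+ (marked p n A S XL hX).H1 := kum h

/-- **its kernel is `M ∩ n J₀(p)(ℚ)`.** -/
theorem kumJ_eq_zero_iff (z : ↥M) :
    kumJ h z = 0 ↔ ∃ z0 : JZero p, (∀ σ : GQ, σ • z0 = z0) ∧ n • z0 = (z : JZero p) := by
  unfold kumJ
  rw [kum_eq_zero_iff]
  constructor
  · rintro ⟨z0, hz0, e⟩
    exact ⟨z0, hz0.1, e⟩
  · rintro ⟨z0, hz0, e⟩
    exact ⟨z0, ⟨hz0, AddSubgroup.mem_top _⟩, e⟩

end Kum

end Fermat.Agent.GZ.Kum.Plug
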