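/-
GATE-Z (S15, Mazur block) / node (KUM), the HECKE PLUG on `J₀(p)` (helper79): the Kummer map of
`GZ/Kum/Plug` is HECKE-EQUIVARIANT into a Selmer group which is a HECKE MODULE — for ANY local
condition `XL` at the primes of `n` ("flat at `r`"), with NO stability hypothesis on `XL`:
`XL` is replaced by its Hecke-core `core (𝕋|J[n]) XL` (`GZ/Kum/H1Func`), the largest `𝕋`-stable
subgroup of `XL`; the Kummer cochains of a `𝕋`-stable `M` stay inside, `H~¹` only gets smaller.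

`𝕋 : Subring (AddMonoid.End (JZero p))` any ring of endomorphisms commuting with `G_ℚ`
(binder `hTG` = (HGAL), owner helper42) — e.g. `endSubring (Algebra.adjoin ℤ (heckeGens p S))`.

* `resW n T`, `resWHom n : AddMonoid.End J →+* AddMonoid.End J[n]` (restriction to torsion);
* `comp_mem_Xur`    : `Xur p n S` is stable under EVERY additive endomorphism of `J[n]`;
* `markedH p n A S 𝕋 XL hTG hXL` : `Dev.Marked D_A I_A J[n]` with `Wf = J[n]^{I_A}` and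
  `X = Xur p n S ⊓ core (𝕋|J[n]) XL`;
* `kumHypH`         : `KumHyp` for it from the SAME binders (LOCP*) `hdiv` and (FL) `hFL` (for `XL`
  itself) as `Plug.kumHyp`, plus `hTM : 𝕋 M ⊆ M`;
* `heckeSel : 𝕋 →+* AddMonoid.End (markedH …).H1`, `heckeSel_mk`;
* `kumH : M →+ (markedH …).H1`, `kumH_eq_zero_iff`, **`kumH_hecke : kumH (t z) = heckeSel t (kumH z)`**;
* adapters: `endSubring 𝕋ℤ` for `𝕋ℤ : Subalgebra ℤ (Module.End ℤ J)`, `equivariant_of_adjoin`,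
  `fixedSub`, `smul_fixedSub_stable` (`M = m • J(ℚ)` is stable).
-/
import Fermat.Agent.GZ.Kum.Plug
import Fermat.Agent.GZ.Kum.H1Func

set_option autoImplicit false
set_option linter.unusedSectionVars false

noncomputable section

open AlgebraicCurve ModularCurve

namespace Fermat.Agent.GZ.Kum.HeckePlug

open Fermat.Agent.GZ.Dev Fermat.Agent.GZ.Kum.KumDev Fermat.Agent.GZ.Kum.TorsModel
  Fermat.Agent.GZ.Kum.Unr Fermat.Agent.GZ.Kum.Plug Fermat.Agent.GZ.Kum.H1Func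

local notation "Qb" => AlgebraicClosure ℚ
local notation "GQ" => (AlgebraicClosure ℚ ≃ₐ[ℚ] AlgebraicClosure ℚ)

/-! ### restriction of endomorphisms to the torsion -/

section Res

variable {J : Type*} [AddCommGroup J] (n : ℕ)

/-- the restriction of an endomorphism of `J` to `J[n]`. -/
def resW (T : AddMonoid.End J) : AddMonoid.End ↥(torsSub J n) :=
  ((T : J →+ J).comp (torsSub J n).subtype).codRestrict (torsSub J n) (fun w => mem_torsSub.2 (by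
    show n • T (w : J) = 0
    rw [← map_nsmul, mem_torsSub.1 w.2, map_zero]))

@[simp] theorem coe_resW (T : AddMonoid.End J) (w : ↥(torsSub J n)) :
    ((resW n T w : ↥(torsSub J n)) : J) = T (w : J) := rfl

/-- restriction to the torsion, as a ring homomorphism. -/
def resWHom : AddMonoid.End J →+* AddMonoid.End ↥(torsSub J n) where
  toFun := resW n
  map_one' := AddMonoidHom.ext fun _ => Subtype.ext rfl
  map_mul' _ _ := AddMonoidHom.ext fun _ => Subtype.ext rfl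
  map_zero' := AddMonoidHom.ext fun _ => Subtype.ext rfl
  map_add' _ _ := AddMonoidHom.ext fun _ => Subtype.ext rfl

@[simp] theorem resWHom_apply (T : AddMonoid.End J) : resWHom n T = resW n T := rfl

/-- the subring of `AddMonoid.End J` attached to a `ℤ`-subalgebra of `Module.End ℤ J`. -/
def endSubring (𝕋ℤ : Subalgebra ℤ (Module.End ℤ J)) : Subring (AddMonoid.End J) :=
  𝕋ℤ.toSubring.comap (addMonoidEndRingEquivInt J : AddMonoid.End J →+* Module.End ℤ J)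

theorem mem_endSubring {𝕋ℤ : Subalgebra ℤ (Module.End ℤ J)} {t : AddMonoid.End J} :
    t ∈ endSubring 𝕋ℤ ↔ AddMonoidHom.toIntLinearMap t ∈ 𝕋ℤ := Iff.rfl

theorem toAddMonoidHom_mem_endSubring {𝕋ℤ : Subalgebra ℤ (Module.End ℤ J)} {t : Module.End ℤ J}
    (ht : t ∈ 𝕋ℤ) : (LinearMap.toAddMonoidHom t : AddMonoid.End J) ∈ endSubring 𝕋ℤ := by
  have e : AddMonoidHom.toIntLinearMap (LinearMap.toAddMonoidHom t) = t := by
    ext v
    rfl
  show AddMonoidHom.toIntLinearMap (LinearMap.toAddMonoidHom t) ∈ 𝕋ℤ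
  rw [e]
  exact ht

end Res

/-! ### equivariance and stability for generated algebras -/

section Gen

variable {G : Type*} [Group G] {J : Type*} [AddCommGroup J] [DistribMulAction G J]

/-- equivariance passes from generators to the generated `ℤ`-algebra. -/
theorem equivariant_of_adjoin {gens : Set (Module.End ℤ J)}
    (hgens : ∀ T ∈ gens, ∀ (σ : G) (v : J), T (σ • v) = σ • T v) {t : Module.End ℤ J}
    (ht : t ∈ Algebra.adjoin ℤ gens) (σ : G) (v : J) : t (σ • v) = σ • t v := by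
  induction ht using Algebra.adjoin_induction generalizing v with
  | mem T hT => exact hgens T hT σ v
  | algebraMap m =>
    show (algebraMap ℤ (Module.End ℤ J) m) (σ • v) = σ • (algebraMap ℤ (Module.End ℤ J) m) v
    rw [Module.algebraMap_end_apply, Module.algebraMap_end_apply]
    exact (map_zsmul (DistribSMul.toAddMonoidHom J σ) m v).symm
  | add x y _ _ hx hy =>
    show x (σ • v) + y (σ • v) = σ • (x v + y v)
    rw [hx, hy, smul_add]
  | mul x y _ _ hx hy =>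
    show x (y (σ • v)) = σ • x (y v)
    rw [hy, hx]

/-- equivariance on `endSubring (Algebra.adjoin ℤ gens)`. -/
theorem equivariant_endSubring_adjoin {gens : Set (Module.End ℤ J)}
    (hgens : ∀ T ∈ gens, ∀ (σ : G) (v : J), T (σ • v) = σ • T v) :
    ∀ t ∈ endSubring (Algebra.adjoin ℤ gens), ∀ (σ : G) (v : J), t (σ • v) = σ • t v :=
  fun _ ht σ v => equivariant_of_adjoin hgens (mem_endSubring.1 ht) σ v

variable (G J)

/-- the fixed points `J^G`. -/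
def fixedSub : AddSubgroup J where
  carrier := {z | ∀ σ : G, σ • z = z}
  zero_mem' := fun σ => smul_zero σ
  add_mem' := fun h h' σ => by rw [smul_add, h σ, h' σ]
  neg_mem' := fun h σ => by rw [smul_neg, h σ]

variable {G J}

theorem mem_fixedSub {z : J} : z ∈ fixedSub G J ↔ ∀ σ : G, σ • z = z := Iff.rfl

/-- `m • J^G` is stable under every equivariant endomorphism. -/
theorem smul_fixedSub_stable (m : ℕ) (t : AddMonoid.End J)
    (ht : ∀ (σ : G) (v : J), t (σ • v) = σ • t v) :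
    ∀ z ∈ (fixedSub G J).map (nsmulAddMonoidHom (α := J) m),
      t z ∈ (fixedSub G J).map (nsmulAddMonoidHom (α := J) m) := by
  rintro _ ⟨z, hz, rfl⟩
  refine ⟨t z, fun σ => by rw [← ht, hz σ], ?_⟩
  show m • t z = t (m • z)
  rw [map_nsmul]

theorem fixed_of_mem_smul_fixedSub (m : ℕ) :
    ∀ z ∈ (fixedSub G J).map (nsmulAddMonoidHom (α := J) m), ∀ σ : G, σ • z = z := by
  rintro _ ⟨z, hz, rfl⟩ σ
  show σ • (m • z) = m • z
  rw [smul_nsmul_comm, hz σ]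

end Gen

/-! ### the Hecke-stable marking on `J₀(p)[n]` -/

variable (p : ℕ) [NeZero p] (n : ℕ)

/-- `Xur` is stable under every additive endomorphism of `J[n]`. -/
theorem comp_mem_Xur {p n} [NeZero p] {S : Set ℕ} (t : AddMonoid.End (Wn p n)) {x : GQ → Wn p n}
    (hx : x ∈ Xur p n S) : (fun σ => t (x σ)) ∈ Xur p n S := by
  obtain ⟨⟨U, hU, hxU⟩, hx'⟩ := hx
  refine ⟨⟨U, hU, fun g s hs => ?_⟩, fun ℓ' hℓ' hS A' hA' σ hσ => ?_⟩
  · show t (x (g * s)) = t (x g)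
    rw [hxU g s hs]
  · show t (x σ) = 0
    rw [hx' ℓ' hℓ' hS A' hA' σ hσ, map_zero]

/-- the Hecke ring acting on `J₀(p)[n]`. -/
def EW (𝕋 : Subring (AddMonoid.End (JZero p))) : Subring (AddMonoid.End (Wn p n)) :=
  𝕋.map (resWHom n)

variable {p n}

theorem mem_EW {𝕋 : Subring (AddMonoid.End (JZero p))} {t' : AddMonoid.End (Wn p n)} :
    t' ∈ EW p n 𝕋 ↔ ∃ t ∈ 𝕋, resW n t = t' := Iff.rfl

theorem resW_mem_EW {𝕋 : Subring (AddMonoid.End (JZero p))} {t : AddMonoid.End (JZero p)}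
    (ht : t ∈ 𝕋) : resW n t ∈ EW p n 𝕋 := ⟨t, ht, rfl⟩

theorem equivariant_EW {𝕋 : Subring (AddMonoid.End (JZero p))}
    (hTG : ∀ t ∈ 𝕋, ∀ (σ : GQ) (v : JZero p), t (σ • v) = σ • t v) :
    ∀ t' ∈ EW p n 𝕋, ∀ (σ : GQ) (w : Wn p n), t' (σ • w) = σ • t' w := by
  rintro _ ⟨t, ht, rfl⟩ σ w
  exact Subtype.ext (hTG t ht σ (w : JZero p))

/-- coboundaries are in `Xur ⊓ core`. -/
theorem dCob_mem_XurCore (hp : p.Prime) (hp2 : p ≠ 2) (hp3 : p ≠ 3) {S : Set ℕ} (hpS : p ∈ S)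
    (hnS : ∀ ℓ' : ℕ, ℓ'.Prime → ℓ' ∣ n → ℓ' ∈ S) {𝕋 : Subring (AddMonoid.End (JZero p))}
    (hTG : ∀ t ∈ 𝕋, ∀ (σ : GQ) (v : JZero p), t (σ • v) = σ • t v)
    {XL : AddSubgroup (GQ → Wn p n)} (hXL : ∀ w : Wn p n, dCob GQ w ∈ XL) (w : Wn p n) :
    dCob GQ w ∈ Xur p n S ⊓ core (EW p n 𝕋 : Set (AddMonoid.End (Wn p n))) XL :=
  ⟨dCob_mem_Xur hp hp2 hp3 hpS hnS w, dCob_mem_core (equivariant_EW hTG) hXL w⟩

variable (p n)

/-- **the Hecke-stable marking** `(J₀(p)[n], J₀(p)[n]^{I_A}, Xur ⊓ core (𝕋|J[n]) XL)`. -/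
def markedH (hp : p.Prime) (hp2 : p ≠ 2) (hp3 : p ≠ 3) (A : ValuationSubring Qb) {S : Set ℕ}
    (hpS : p ∈ S) (hnS : ∀ ℓ' : ℕ, ℓ'.Prime → ℓ' ∣ n → ℓ' ∈ S)
    (𝕋 : Subring (AddMonoid.End (JZero p)))
    (hTG : ∀ t ∈ 𝕋, ∀ (σ : GQ) (v : JZero p), t (σ • v) = σ • t v)
    (XL : AddSubgroup (GQ → Wn p n)) (hXL : ∀ w : Wn p n, dCob GQ w ∈ XL) :
    Marked (A.decompositionSubgroup ℚ) (A.inertiaSubgroupIn ℚ) (Wn p n) :=
  marked p n A S (core (EW p n 𝕋 : Set (AddMonoid.End (Wn p n))) XL)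
    (dCob_mem_XurCore hp hp2 hp3 hpS hnS hTG hXL)

variable {p n}

section Main

variable (hp : p.Prime) (hp2 : p ≠ 2) (hp3 : p ≠ 3) (A : ValuationSubring Qb) {S : Set ℕ}
  (hpS : p ∈ S) (hnS : ∀ ℓ' : ℕ, ℓ'.Prime → ℓ' ∣ n → ℓ' ∈ S)
  (𝕋 : Subring (AddMonoid.End (JZero p)))
  (hTG : ∀ t ∈ 𝕋, ∀ (σ : GQ) (v : JZero p), t (σ • v) = σ • t v)
  (XL : AddSubgroup (GQ → Wn p n)) (hXL : ∀ w : Wn p n, dCob GQ w ∈ XL)

/-- **the hypotheses of the Kummer map for the Hecke-stable marking**: the binders are those of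
`Plug.kumHyp` ((LOCP*) `hdiv`, (FL) `hFL` for `XL` ITSELF) and the stability `hTM` of `M`. -/
theorem kumHypH (M : AddSubgroup (JZero p)) (hM : ∀ z ∈ M, ∀ σ : GQ, σ • z = z)
    (hTM : ∀ t ∈ 𝕋, ∀ z ∈ M, t z ∈ M)
    (hdiv : ∀ z ∈ M, ∃ R : JZero p, n • R = z ∧ ∀ τ ∈ A.inertiaSubgroupIn ℚ, τ • R = R)
    (hFL : ∀ R : JZero p, n • R ∈ M → ∀ x : GQ → Wn p n,
      (∀ σ, torsι (JZero p) n (x σ) = σ • R - R) → x ∈ XL) :
    KumHyp (⊤ : AddSubgroup (JZero p)) n (torsι (JZero p) n)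
      (markedH p n hp hp2 hp3 A hpS hnS 𝕋 hTG XL hXL) M :=
  kumHyp hp hp2 hp3 A hpS hnS _ _ M hM hdiv (fun R hR x hx t' ht' => by
    obtain ⟨t, ht, rfl⟩ := ht'
    refine hFL (t R) (by rw [← map_nsmul]; exact hTM t ht _ hR) _ (fun σ => ?_)
    show t ((x σ : Wn p n) : JZero p) = σ • t R - t R
    rw [show ((x σ : Wn p n) : JZero p) = σ • R - R from hx σ, map_sub, hTG t ht])

/-- every `t ∈ 𝕋` restricts to a marked endomorphism. -/
theorem resW_mem_markedEnd {t : AddMonoid.End (JZero p)} (ht : t ∈ 𝕋) :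
    resW n t ∈ markedEnd (markedH p n hp hp2 hp3 A hpS hnS 𝕋 hTG XL hXL) :=
  mem_markedEnd_plain (fun _ hτ _ hτ' => conj_mem_inertia A hτ hτ')
    (fun _ ht _ ht' => (EW p n 𝕋).mul_mem ht' ht) (equivariant_EW hTG) (Xur p n S) XL
    (fun t _ _ hx => comp_mem_Xur t hx) (dCob_mem_XurCore hp hp2 hp3 hpS hnS hTG hXL)
    (resW_mem_EW ht)

/-- **the Hecke action on the Selmer group** `H~¹(J[n], J[n]^{I_A}, Xur ⊓ core XL)`. -/
def heckeSel : 𝕋 →+* AddMonoid.End (markedH p n hp hp2 hp3 A hpS hnS 𝕋 hTG XL hXL).H1 :=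
  (H1End _).comp (((resWHom n).comp 𝕋.subtype).codRestrict
    (markedEnd (markedH p n hp hp2 hp3 A hpS hnS 𝕋 hTG XL hXL))
    (fun t => resW_mem_markedEnd hp hp2 hp3 A hpS hnS 𝕋 hTG XL hXL t.2))

theorem heckeSel_apply (t : 𝕋) (x : (markedH p n hp hp2 hp3 A hpS hnS 𝕋 hTG XL hXL).H1) :
    heckeSel hp hp2 hp3 A hpS hnS 𝕋 hTG XL hXL t x =
      H1map (toHom ⟨resW n (t : AddMonoid.End (JZero p)),
        resW_mem_markedEnd hp hp2 hp3 A hpS hnS 𝕋 hTG XL hXL t.2⟩) x := rfl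

variable {hp hp2 hp3 A hpS hnS 𝕋 hTG XL hXL}
variable {M : AddSubgroup (JZero p)}
  (h : KumHyp (⊤ : AddSubgroup (JZero p)) n (torsι (JZero p) n)
    (markedH p n hp hp2 hp3 A hpS hnS 𝕋 hTG XL hXL) M)

/-- **the Kummer map** into the Hecke-module Selmer group. -/
def kumH : ↥M →+ (markedH p n hp hp2 hp3 A hpS hnS 𝕋 hTG XL hXL).H1 := kum h

/-- its kernel is `M ∩ n J₀(p)(ℚ)`. -/
theorem kumH_eq_zero_iff (z : ↥M) :
    kumH h z = 0 ↔ ∃ z0 : JZero p, (∀ σ : GQ, σ • z0 = z0) ∧ n • z0 = (z : JZero p) := by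
  unfold kumH
  rw [kum_eq_zero_iff]
  constructor
  · rintro ⟨z0, hz0, e⟩
    exact ⟨z0, hz0.1, e⟩
  · rintro ⟨z0, hz0, e⟩
    exact ⟨z0, ⟨hz0, AddSubgroup.mem_top _⟩, e⟩

/-- **Hecke equivariance of the Kummer map.** -/
theorem kumH_hecke (hTM : ∀ t ∈ 𝕋, ∀ z ∈ M, t z ∈ M) (t : 𝕋) (z : ↥M) :
    kumH h ⟨(t : AddMonoid.End (JZero p)) (z : JZero p), hTM t t.2 z z.2⟩ =
      heckeSel hp hp2 hp3 A hpS hnS 𝕋 hTG XL hXL t (kumH h z) :=
  kum_equivariant h (t : AddMonoid.End (JZero p)) (hTG t t.2) (fun _ _ => AddSubgroup.mem_top _)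
    (hTM t t.2) _ (fun _ => rfl) z

end Main

/-- **ONE-CALL PACKAGE** (all binders visible): from (HGAL) `hgens` on the generators, (LOCP*)
`hdiv` with the integer `m`, and (FL) `hFL` for an arbitrary local condition `XL ∋ coboundaries`:
the Hecke ring `𝕋 = endSubring (Algebra.adjoin ℤ gens)` acts on
`H~¹(J[n], J[n]^{I_A}, Xur ⊓ core XL)` and the Kummer map of `M = m • J₀(p)(ℚ)` is `𝕋`-equivariant
with kernel `M ∩ n J₀(p)(ℚ)`. -/
theorem kummer_package (hp : p.Prime) (hp2 : p ≠ 2) (hp3 : p ≠ 3) (A : ValuationSubring Qb)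
    {S : Set ℕ} (hpS : p ∈ S) (hnS : ∀ ℓ' : ℕ, ℓ'.Prime → ℓ' ∣ n → ℓ' ∈ S)
    (gens : Set (Module.End ℤ (JZero p)))
    (hgens : ∀ T ∈ gens, ∀ (σ : GQ) (v : JZero p), T (σ • v) = σ • T v)
    (XL : AddSubgroup (GQ → Wn p n)) (hXL : ∀ w : Wn p n, dCob GQ w ∈ XL) (m : ℕ)
    (hdiv : ∀ z : JZero p, (∀ σ : GQ, σ • z = z) →
      ∃ R : JZero p, n • R = m • z ∧ ∀ τ ∈ A.inertiaSubgroupIn ℚ, τ • R = R)
    (hFL : ∀ R : JZero p, (∀ σ : GQ, σ • (n • R) = n • R) → ∀ x : GQ → Wn p n,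
      (∀ σ, torsι (JZero p) n (x σ) = σ • R - R) → x ∈ XL) :
    let 𝕋 := endSubring (Algebra.adjoin ℤ gens)
    let hTG := equivariant_endSubring_adjoin (G := GQ) hgens
    let M := (fixedSub GQ (JZero p)).map (nsmulAddMonoidHom (α := JZero p) m)
    let 𝒱 := markedH p n hp hp2 hp3 A hpS hnS 𝕋 hTG XL hXL
    ∃ κ : ↥M →+ 𝒱.H1,
      (∀ z : ↥M, κ z = 0 ↔ ∃ z0 : JZero p, (∀ σ : GQ, σ • z0 = z0) ∧ n • z0 = (z : JZero p)) ∧
      ∀ (t : 𝕋) (z : ↥M) (htz : (t : AddMonoid.End (JZero p)) (z : JZero p) ∈ M),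
        κ ⟨(t : AddMonoid.End (JZero p)) (z : JZero p), htz⟩ =
          heckeSel hp hp2 hp3 A hpS hnS 𝕋 hTG XL hXL t (κ z) := by
  intro 𝕋 hTG M 𝒱
  have hM : ∀ z ∈ M, ∀ σ : GQ, σ • z = z := fixed_of_mem_smul_fixedSub m
  have hTM : ∀ t ∈ 𝕋, ∀ z ∈ M, t z ∈ M := fun t ht => smul_fixedSub_stable m t (hTG t ht)
  have h : KumHyp (⊤ : AddSubgroup (JZero p)) n (torsι (JZero p) n) 𝒱 M :=
    kumHypH hp hp2 hp3 A hpS hnS 𝕋 hTG XL hXL M hM hTM
      (by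
        rintro _ ⟨z, hz, rfl⟩
        exact hdiv z hz)
      (fun R hR x hx => hFL R (fun σ => hM _ hR σ) x hx)
  exact ⟨kumH h, kumH_eq_zero_iff h, fun t z _ => kumH_hecke h hTM t z⟩

end Fermat.Agent.GZ.Kum.HeckePlug
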