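/-
GATE-Z (S15, Mazur block) / node (KUM), the PLAIN (all-`k`) specialisation (helper79), after
helper20's RULING R1 (board 5806): Selmer structure "unramified at `p`" = trivial on inertia,
marked module `Wf := W^I` (full invariants), `J0 := ⊤`, `n := r ^ k`, `M ≤ J^G` any subgroup of
rational classes whose elements have an `I`-fixed `n`-th root ((LOCP*): `M := m • J^G`).

* `markedPlain D I hnorm X hX : Marked D I W` with `Wf = W^I`;
* `kumHyp_plain` : the hypotheses of `Abs.kum` in this situation;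
* `kumPlain : M →+ H1 (markedPlain …)` with
  `kumPlain_eq_zero_iff : kumPlain z = 0 ↔ ∃ z0, (∀ σ, σ • z0 = z0) ∧ n • z0 = z`
  (i.e. `M / (M ∩ n J^G) ↪ H~¹`), and `kumPlain_equivariant`.
-/
import Fermat.Agent.GZ.Kum.Abs

set_option autoImplicit false

namespace Fermat.Agent.GZ.Kum.Plain

open Fermat.Agent.GZ.Kum.Sel Fermat.Agent.GZ.Kum.Abs

noncomputable section

variable {G : Type*} [Group G] (D I : Subgroup G)
variable {J : Type*} [AddCommGroup J] [DistribMulAction G J]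
variable {W : Type*} [AddCommGroup W] [DistribMulAction G W]

/-- the `I`-invariants of `W`. -/
def invI (W : Type*) [AddCommGroup W] [DistribMulAction G W] : AddSubgroup W where
  carrier := {w | ∀ τ ∈ I, τ • w = w}
  zero_mem' := fun τ _ => smul_zero τ
  add_mem' := fun h h' τ hτ => by rw [smul_add, h τ hτ, h' τ hτ]
  neg_mem' := fun h τ hτ => by rw [smul_neg, h τ hτ]

theorem mem_invI {w : W} : w ∈ invI I W ↔ ∀ τ ∈ I, τ • w = w := Iff.rfl

/-- the plain marking: `Wf := W^I`. -/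
def markedPlain (hnorm : ∀ τ ∈ D, ∀ τ' ∈ I, τ⁻¹ * τ' * τ ∈ I) (X : AddSubgroup (G → W))
    (hX : ∀ w : W, (fun σ : G => σ • w - w) ∈ X) : Marked D I W where
  Wf := invI I W
  X := X
  smul_mem_Wf := fun τ hτ w hw τ' hτ' => by
    have e : τ' * τ = τ * (τ⁻¹ * τ' * τ) := by group
    rw [← mul_smul, e, mul_smul, hw _ (hnorm τ hτ τ' hτ')]
  smul_eq_Wf := fun τ hτ w hw => hw τ hτ
  cob_mem_X := hX

variable {D I}

/-- the hypotheses of the Kummer map in the plain situation. -/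
theorem kumHyp_plain (hnorm : ∀ τ ∈ D, ∀ τ' ∈ I, τ⁻¹ * τ' * τ ∈ I) (X : AddSubgroup (G → W))
    (hX : ∀ w : W, (fun σ : G => σ • w - w) ∈ X) (n : ℕ) (ι : W →+ J) (M : AddSubgroup J)
    (hinj : Function.Injective ι) (hkill : ∀ w : W, n • ι w = 0)
    (htors : ∀ t : J, n • t = 0 → ∃ w : W, ι w = t)
    (hequiv : ∀ (σ : G) (w : W), ι (σ • w) = σ • ι w)
    (hM : ∀ z ∈ M, ∀ σ : G, σ • z = z)
    (hdiv : ∀ z ∈ M, ∃ R : J, n • R = z ∧ ∀ τ ∈ I, τ • R = R)
    (hXk : ∀ R : J, n • R ∈ M → ∀ x : G → W, (∀ σ, ι (x σ) = σ • R - R) → x ∈ X) :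
    KumHyp (⊤ : AddSubgroup J) n ι (markedPlain D I hnorm X hX) M where
  hinj := hinj
  hkill := hkill
  htors := htors
  hequiv := hequiv
  hnorm := hnorm
  hJ0 := fun _ _ _ _ => AddSubgroup.mem_top _
  hWf := fun w => by
    show w ∈ invI I W ↔ _
    rw [mem_invI]
    constructor
    · intro h
      exact ⟨AddSubgroup.mem_top _, fun τ hτ => by rw [← hequiv, h τ hτ]⟩
    · rintro ⟨-, h⟩ τ hτ
      apply hinj
      rw [hequiv, h τ hτ]
  hM := fun z hz => ⟨hM z hz, AddSubgroup.mem_top _⟩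
  hdiv := fun z hz => by
    obtain ⟨R, hR, hRI⟩ := hdiv z hz
    exact ⟨R, AddSubgroup.mem_top _, hR, hRI⟩
  hXk := hXk

section Kum

variable {hnorm : ∀ τ ∈ D, ∀ τ' ∈ I, τ⁻¹ * τ' * τ ∈ I} {X : AddSubgroup (G → W)}
  {hX : ∀ w : W, (fun σ : G => σ • w - w) ∈ X} {n : ℕ} {ι : W →+ J} {M : AddSubgroup J}
  (h : KumHyp (⊤ : AddSubgroup J) n ι (markedPlain D I hnorm X hX) M)

/-- **the plain Kummer map** `M →+ H~¹(W, W^I, X)`. -/
def kumPlain : ↥M →+ (markedPlain D I hnorm X hX).H1 := kum h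

/-- **its kernel is `M ∩ n J^G`.** -/
theorem kumPlain_eq_zero_iff (z : ↥M) :
    kumPlain h z = 0 ↔ ∃ z0 : J, (∀ σ : G, σ • z0 = z0) ∧ n • z0 = (z : J) := by
  unfold kumPlain
  rw [kum_eq_zero_iff]
  constructor
  · rintro ⟨z0, hz0, e⟩
    exact ⟨z0, hz0.1, e⟩
  · rintro ⟨z0, hz0, e⟩
    exact ⟨z0, ⟨hz0, AddSubgroup.mem_top _⟩, e⟩

/-- **Hecke equivariance of the plain Kummer map.** -/
theorem kumPlain_equivariant (T : J →+ J) (hTG : ∀ (σ : G) (v : J), T (σ • v) = σ • T v)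
    (hTM : ∀ v ∈ M, T v ∈ M) (φ : (markedPlain D I hnorm X hX).Hom (markedPlain D I hnorm X hX))
    (hφ : ∀ w : W, ι (φ.f w) = T (ι w)) (z : ↥M) :
    kumPlain h ⟨T z, hTM z z.2⟩ = φ.H1map (kumPlain h z) :=
  kum_equivariant h T hTG (fun _ _ => AddSubgroup.mem_top _) hTM φ hφ z

end Kum

end

end Fermat.Agent.GZ.Kum.Plain
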